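import Mathlib.RingTheory.AdicCompletion.Completeness
import Mathlib.RingTheory.MvPowerSeries.Equiv
import Mathlib.RingTheory.MvPowerSeries.Inverse
import Mathlib.RingTheory.LocalRing.ResidueField.Basic
import Mathlib.RingTheory.Ideal.Quotient.Index

/-!
# Power series over a complete local ring form a complete local ring
-/

set_option autoImplicit false

namespace Fermat.Agent.Patching

open IsLocalRing Finsupp

variable {O : Type} [CommRing O] {r : ℕ}

/-- A power series with no terms below degree `k` is in the `k`-th power of the variables. -/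
theorem mem_span_X_pow {k : ℕ} {f : MvPowerSeries (Fin r) O}
    (h : ∀ e, degree e < k → MvPowerSeries.coeff e f = 0) :
    f ∈ Ideal.span (Set.range (MvPowerSeries.X (R := O))) ^ k := by
  let e := MvPowerSeries.toAdicCompletionAlgEquiv (Fin r) O
  let I := MvPolynomial.idealOfVars (Fin r) O
  have htr : MvPowerSeries.truncTotal k f = 0 := by
    ext d
    rw [MvPolynomial.coeff_zero]
    by_cases hd : degree d < k
    · rw [MvPowerSeries.coeff_truncTotal _ hd, h d hd]
    · exact MvPowerSeries.coeff_truncTotal_eq_zero _ (not_lt.1 hd)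
  have h1 : e f ∈ I ^ k •
      (⊤ : Submodule (MvPolynomial (Fin r) O) (AdicCompletion I (MvPolynomial (Fin r) O))) := by
    rw [AdicCompletion.pow_smul_top_eq_ker_eval (MvPolynomial.idealOfVars_fg (Fin r) O),
      LinearMap.mem_ker]
    change (MvPowerSeries.toAdicCompletion (Fin r) O f).val k = 0
    rw [MvPowerSeries.toAdicCompletion_apply_eq_mk_truncTotal, htr]
    exact map_zero _
  have h2 := Submodule.mem_map_of_mem (f := e.symm.toLinearEquiv.toLinearMap) h1
  rw [Submodule.map_smul'', Submodule.map_top, LinearEquiv.range, Ideal.smul_top_eq_map] at h2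
  replace h2 : f ∈ Ideal.map (algebraMap (MvPolynomial (Fin r) O) (MvPowerSeries (Fin r) O))
      (I ^ k) := by simpa using h2
  have hmap : (MvPolynomial.idealOfVars (Fin r) O).map
      (algebraMap (MvPolynomial (Fin r) O) (MvPowerSeries (Fin r) O)) =
        Ideal.span (Set.range (MvPowerSeries.X (R := O))) := by
    rw [Ideal.map_span, ← Set.range_comp]
    congr 1
    refine congrArg Set.range (funext fun i => ?_)
    simp [MvPowerSeries.algebraMap_apply']
  rwa [Ideal.map_pow, hmap] at h2

variable [IsLocalRing O]

/-- The ideal of power series whose coefficient in degree `e` lies in `𝔪 ^ (k - |e|)`. -/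
def coeffIdeal (k : ℕ) : Ideal (MvPowerSeries (Fin r) O) where
  carrier := {f | ∀ e, MvPowerSeries.coeff e f ∈ maximalIdeal O ^ (k - degree e)}
  add_mem' ha hb e := by rw [map_add]; exact add_mem (ha e) (hb e)
  zero_mem' e := by rw [map_zero]; exact zero_mem _
  smul_mem' g f hf e := by
    classical
    rw [smul_eq_mul, MvPowerSeries.coeff_mul]
    refine Ideal.sum_mem _ fun p hp => Ideal.mul_mem_left _ _ ?_
    have : degree p.2 ≤ degree e := by
      rw [← Finset.HasAntidiagonal.mem_antidiagonal.mp hp, map_add]; omega
    exact Ideal.pow_le_pow_right (by omega) (hf p.2)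

theorem mul_coeffIdeal_le (a b : ℕ) :
    coeffIdeal (O := O) (r := r) a * coeffIdeal b ≤ coeffIdeal (a + b) := by
  classical
  refine Ideal.mul_le.mpr fun f hf g hg e => ?_
  rw [MvPowerSeries.coeff_mul]
  refine Ideal.sum_mem _ fun p hp => ?_
  have hde : degree p.1 + degree p.2 = degree e := by
    rw [← map_add, Finset.HasAntidiagonal.mem_antidiagonal.mp hp]
  refine Ideal.pow_le_pow_right (m := a + b - degree e)
    (n := (a - degree p.1) + (b - degree p.2)) (by omega) ?_
  rw [pow_add]
  exact Ideal.mul_mem_mul (hf p.1) (hg p.2)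

theorem maximalIdeal_pow_le_coeffIdeal (k : ℕ) :
    maximalIdeal (MvPowerSeries (Fin r) O) ^ k ≤ coeffIdeal k := by
  induction k with
  | zero => intro f _ e; simp
  | succ k ih =>
    refine le_trans ?_ (mul_coeffIdeal_le k 1)
    rw [pow_succ]
    refine Ideal.mul_mono ih fun f hf e => ?_
    rcases Nat.eq_zero_or_pos (degree e) with hd | hd
    · rw [(Finsupp.degree_eq_zero_iff e).mp hd, MvPowerSeries.coeff_zero_eq_constantCoeff_apply]
      simpa [mem_maximalIdeal, MvPowerSeries.isUnit_iff_constantCoeff] using hf
    · rw [Nat.sub_eq_zero_of_le hd]; simp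

/-- The variables lie in the maximal ideal. -/
theorem span_X_le_maximalIdeal :
    Ideal.span (Set.range (MvPowerSeries.X (R := O) (σ := Fin r))) ≤
      maximalIdeal (MvPowerSeries (Fin r) O) := by
  refine Ideal.span_le.mpr ?_
  rintro _ ⟨i, rfl⟩
  simp [mem_maximalIdeal, MvPowerSeries.isUnit_iff_constantCoeff]

theorem coeffIdeal_le_maximalIdeal_pow (k : ℕ) :
    coeffIdeal k ≤ maximalIdeal (MvPowerSeries (Fin r) O) ^ k := by
  intro f hf
  let p := MvPowerSeries.truncTotal k f
  have htail : f - (p : MvPowerSeries (Fin r) O) ∈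
      maximalIdeal (MvPowerSeries (Fin r) O) ^ k := by
    refine Ideal.pow_right_mono span_X_le_maximalIdeal k (mem_span_X_pow fun e he => ?_)
    rw [map_sub, MvPolynomial.coeff_coe, MvPowerSeries.coeff_truncTotal _ he, sub_self]
  suffices hp : (p : MvPowerSeries (Fin r) O) ∈ maximalIdeal (MvPowerSeries (Fin r) O) ^ k by
    simpa using add_mem htail hp
  rw [← MvPolynomial.coeToMvPowerSeries.ringHom_apply, p.as_sum, map_sum]
  refine Ideal.sum_mem _ fun e _ => ?_
  have hd : degree e < k ∨ p.coeff e = 0 := by
    by_cases h : degree e < k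
    · exact .inl h
    · exact .inr (MvPowerSeries.coeff_truncTotal_eq_zero _ (not_lt.1 h))
  rcases hd with hd | hd
  · have hc : p.coeff e ∈ maximalIdeal O ^ (k - degree e) := by
      rw [MvPowerSeries.coeff_truncTotal _ hd]; exact hf e
    rw [show MvPolynomial.monomial e (p.coeff e) =
      MvPolynomial.C (p.coeff e) * MvPolynomial.monomial e (1 : O) by
        rw [MvPolynomial.C_mul_monomial, mul_one], map_mul]
    rw [show k = (k - degree e) + degree e by omega, pow_add]
    refine Ideal.mul_mem_mul ?_ ?_
    · have hle : (maximalIdeal O).map (MvPowerSeries.C (σ := Fin r)) ≤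
          maximalIdeal (MvPowerSeries (Fin r) O) := by
        refine Ideal.map_le_iff_le_comap.mpr fun x hx => ?_
        simpa [mem_maximalIdeal, MvPowerSeries.isUnit_iff_constantCoeff] using hx
      rw [MvPolynomial.coeToMvPowerSeries.ringHom_apply, MvPolynomial.coe_C]
      refine Ideal.pow_right_mono hle _ ?_
      rw [← Ideal.map_pow]
      exact Ideal.mem_map_of_mem _ hc
    · have hle : (MvPolynomial.idealOfVars (Fin r) O).map
          (MvPolynomial.coeToMvPowerSeries.ringHom) ≤
            maximalIdeal (MvPowerSeries (Fin r) O) := by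
        refine le_trans (le_of_eq ?_) span_X_le_maximalIdeal
        rw [Ideal.map_span, ← Set.range_comp]
        congr 2
        ext i : 1
        simp
      refine Ideal.pow_right_mono hle _ ?_
      rw [← Ideal.map_pow]
      refine Ideal.mem_map_of_mem _ ?_
      rw [MvPolynomial.mem_pow_idealOfVars_iff']
      intro x hx
      classical
      rw [MvPolynomial.coeff_monomial, if_neg]
      rintro rfl
      exact lt_irrefl _ hx
  · simp [hd]

/-- Powers of the maximal ideal, coefficientwise. -/
theorem mem_maximalIdeal_pow_iff {k : ℕ} {f : MvPowerSeries (Fin r) O} :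
    f ∈ maximalIdeal (MvPowerSeries (Fin r) O) ^ k ↔
      ∀ e, MvPowerSeries.coeff e f ∈ maximalIdeal O ^ (k - degree e) :=
  ⟨fun h => maximalIdeal_pow_le_coeffIdeal k h, fun h => coeffIdeal_le_maximalIdeal_pow k h⟩

instance isAdicComplete_mvPowerSeries [IsAdicComplete (maximalIdeal O) O] :
    IsAdicComplete (maximalIdeal (MvPowerSeries (Fin r) O)) (MvPowerSeries (Fin r) O) where
  haus' f hf := by
    ext e
    rw [map_zero]
    refine IsHausdorff.haus (I := maximalIdeal O) inferInstance _ fun n => ?_
    have := hf (n + degree e)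
    rw [SModEq.zero, smul_eq_mul, Ideal.mul_top, mem_maximalIdeal_pow_iff] at this
    rw [SModEq.zero, smul_eq_mul, Ideal.mul_top]
    simpa using this e
  prec' f hf := by
    have hc : ∀ e : Fin r →₀ ℕ, ∃ x, ∀ n,
        MvPowerSeries.coeff e (f (n + degree e)) - x ∈ maximalIdeal O ^ n := by
      intro e
      obtain ⟨x, hx⟩ := IsPrecomplete.prec (I := maximalIdeal O) inferInstance
        (f := fun n => MvPowerSeries.coeff e (f (n + degree e))) (fun {m n} hmn => by
          have := hf (show m + degree e ≤ n + degree e by omega)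
          rw [SModEq.sub_mem, smul_eq_mul, Ideal.mul_top, mem_maximalIdeal_pow_iff] at this
          rw [SModEq.sub_mem, smul_eq_mul, Ideal.mul_top, ← map_sub]
          simpa using this e)
      exact ⟨x, fun n => by simpa [SModEq.sub_mem] using hx n⟩
    choose L hL using hc
    let F : MvPowerSeries (Fin r) O := L
    refine ⟨F, fun n => ?_⟩
    rw [SModEq.sub_mem, smul_eq_mul, Ideal.mul_top, mem_maximalIdeal_pow_iff]
    intro e
    rcases le_or_gt n (degree e) with hn | hn
    · rw [Nat.sub_eq_zero_of_le hn]; simp
    · have := hL e (n - degree e)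
      rw [Nat.sub_add_cancel hn.le] at this
      rw [map_sub]
      exact this

/-- The quotients by powers of the maximal ideal are finite when the residue field is. -/
theorem finite_quotient_maximalIdeal_pow [IsNoetherianRing O] [Finite (ResidueField O)] (k : ℕ) :
    Finite (MvPowerSeries (Fin r) O ⧸ maximalIdeal (MvPowerSeries (Fin r) O) ^ k) := by
  let π := Ideal.Quotient.mk (maximalIdeal (MvPowerSeries (Fin r) O))
  have hkey : ∀ f : MvPowerSeries (Fin r) O,
      π f = π (MvPowerSeries.C (MvPowerSeries.constantCoeff f)) := fun f => by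
    refine Ideal.Quotient.eq.mpr ?_
    simp [mem_maximalIdeal, MvPowerSeries.isUnit_iff_constantCoeff]
  have hker : ∀ a ∈ maximalIdeal O, π (MvPowerSeries.C a) = 0 := fun a ha => by
    refine Ideal.Quotient.eq_zero_iff_mem.mpr ?_
    simpa [mem_maximalIdeal, MvPowerSeries.isUnit_iff_constantCoeff] using ha
  have hfin : Finite (MvPowerSeries (Fin r) O ⧸ maximalIdeal (MvPowerSeries (Fin r) O)) := by
    have : Finite (O ⧸ maximalIdeal O) := inferInstanceAs (Finite (ResidueField O))
    refine Finite.of_surjective (Ideal.Quotient.lift (maximalIdeal O)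
      (π.comp MvPowerSeries.C) hker) fun x => ?_
    obtain ⟨f, rfl⟩ := Ideal.Quotient.mk_surjective x
    exact ⟨Ideal.Quotient.mk _ (MvPowerSeries.constantCoeff f), by simpa using! (hkey f).symm⟩
  exact Ideal.finite_quotient_pow (IsNoetherian.noetherian _) k

end Fermat.Agent.Patching
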