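import Fermat.Agent.Patching.OfTW

/-!
# From Taylor–Wiles level data to `R = T`

`TWLevel` records what one Taylor–Wiles level supplies: the ring `R_Q`, elements `s_j` (the
characters of tame inertia at the Taylor–Wiles primes) of exact `ℓ`-power exponents, a module
`M_Q` of the full `𝒪`-rank whose coinvariants under the `s_j` are `M`.
-/

set_option autoImplicit false

namespace Fermat.Agent.Patching

open IsLocalRing

/-- Taylor–Wiles data of level `n` over `R` and `M` (with `d = rank_𝒪 M`). -/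
structure TWLevel (𝒪 : Type) [CommRing 𝒪] (ℓ n r d : ℕ) (R : Type) [CommRing R] [Algebra 𝒪 R]
    (M : Type) [AddCommGroup M] [Module R M] : Type 1 where
  Rn : Type
  [commRing : CommRing Rn]
  [algebra : Algebra 𝒪 Rn]
  γ : MvPowerSeries (Fin r) 𝒪 →ₐ[𝒪] Rn
  γ_surjective : Function.Surjective γ
  τ : Rn →ₐ[𝒪] R
  τ_surjective : Function.Surjective τ
  v : Fin r → ℕ
  le_v : ∀ j, n ≤ v j
  s : Fin r → Rn
  τ_s : ∀ j, τ (s j) = 1
  Mn : Type
  [addCommGroup : AddCommGroup Mn]
  [moduleRn : Module Rn Mn]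
  [module : Module 𝒪 Mn]
  [tower : IsScalarTower 𝒪 Rn Mn]
  [finite : Module.Finite 𝒪 Mn]
  [free : Module.Free 𝒪 Mn]
  s_pow : ∀ j (x : Mn), s j ^ (ℓ ^ v j) • x = x
  finrank_eq : Module.finrank 𝒪 Mn = d * ∏ j, ℓ ^ v j
  cor : Mn →+ M
  cor_smul : ∀ (x : Rn) (y : Mn), cor (x • y) = τ x • cor y
  cor_surjective : Function.Surjective cor
  ker_cor : ∀ y, cor y = 0 → y ∈ Ideal.span (Set.range fun j => s j - 1) • (⊤ : Submodule Rn Mn)

attribute [instance] TWLevel.commRing TWLevel.algebra TWLevel.addCommGroup TWLevel.moduleRn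
  TWLevel.module TWLevel.tower TWLevel.finite TWLevel.free

/-- Nakayama for a ring hom `f` out of a local ring: a subgroup stable under `f` which together
with `f(I) • N` spans the finite module `N` is everything. -/
theorem surjective_of_nakayama {A S : Type} [CommRing A] [IsLocalRing A] [CommRing S] (f : A →+* S)
    {N : Type} [AddCommGroup N] [Module S N] {O : Type} [CommRing O] [Module O N]
    [Module.Finite O N] (g : O →+* A) (hg : ∀ (a : O) (y : N), a • y = f (g a) • y)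
    {I : Ideal A} (hI : I ≤ maximalIdeal A) {ι : Type} [Fintype ι] (y : ι → N)
    (h : ∀ z : N, ∃ c : ι → A, ∃ w ∈ I.map f • (⊤ : Submodule S N), z = ∑ i, f (c i) • y i + w) :
    ∀ z : N, ∃ c : ι → A, z = ∑ i, f (c i) • y i := by
  let _ : Module A N := Module.compHom N f
  have hsmul : ∀ (a : A) (z : N), a • z = f a • z := fun _ _ => rfl
  have hfin : (⊤ : Submodule A N).FG := by
    obtain ⟨t, ht⟩ := (Module.finite_def (R := O) (M := N)).mp inferInstance
    refine ⟨t, eq_top_iff.mpr fun z _ => ?_⟩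
    have hz : z ∈ Submodule.span O (t : Set N) := by rw [ht]; trivial
    induction hz using Submodule.span_induction with
    | mem w hw => exact Submodule.subset_span hw
    | zero => exact zero_mem _
    | add a b _ _ ha hb => exact add_mem (ha trivial) (hb trivial)
    | smul a w _ hw => rw [hg, ← hsmul]; exact Submodule.smul_mem _ _ (hw trivial)
  set S₀ := Submodule.span A (Set.range y)
  have hle : (⊤ : Submodule A N) ≤ S₀ ⊔ I • ⊤ := by
    intro z _
    obtain ⟨c, w, hw, rfl⟩ := h z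
    refine Submodule.add_mem_sup (Submodule.sum_mem _ fun i _ => ?_) ?_
    · rw [← hsmul]; exact Submodule.smul_mem _ _ (Submodule.subset_span ⟨i, rfl⟩)
    · refine Submodule.smul_induction_on hw ?_ (fun _ _ => add_mem)
      intro a ha x _
      revert x
      induction ha using Submodule.span_induction with
      | mem b hb =>
        obtain ⟨b, hb, rfl⟩ := hb
        intro x _
        rw [← hsmul]
        exact Submodule.smul_mem_smul hb trivial
      | zero => intro x _; rw [zero_smul]; exact zero_mem _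
      | add a b _ _ ha hb => intro x hx; rw [add_smul]; exact add_mem (ha x hx) (hb x hx)
      | smul b a _ ha => intro x hx; rw [smul_eq_mul, mul_comm, mul_smul]; exact ha (b • x) trivial
  have htop : S₀ = ⊤ := top_le_iff.mp <| Submodule.le_of_le_smul_of_le_jacobson_bot hfin
    (hI.trans (maximalIdeal_le_jacobson _)) hle
  intro z
  obtain ⟨c, hc⟩ := Submodule.mem_span_range_iff_exists_fun A |>.mp (htop ▸ trivial : z ∈ S₀)
  exact ⟨c, hc.symm⟩

/-- A surjection between finite free modules of the same rank is injective. -/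
theorem injective_of_finrank_eq {O N N' : Type} [CommRing O] [Nontrivial O] [AddCommGroup N]
    [Module O N] [Module.Finite O N] [Module.Free O N] [AddCommGroup N'] [Module O N']
    [Module.Finite O N'] [Module.Free O N'] (f : N →ₗ[O] N') (hf : Function.Surjective f)
    (h : Module.finrank O N = Module.finrank O N') : Function.Injective f := by
  let eqv := LinearEquiv.ofFinrankEq (R := O) N' N h.symm
  have h1 := OrzechProperty.injective_of_surjective_endomorphism (eqv.toLinearMap ∘ₗ f)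
    (eqv.surjective.comp hf)
  exact fun a b e => h1 (congrArg eqv e)

variable {𝒪 : Type} [CommRing 𝒪] [IsDomain 𝒪] [IsDiscreteValuationRing 𝒪]
  [IsAdicComplete (maximalIdeal 𝒪) 𝒪] {ℓ n r d : ℕ}

omit [IsDomain 𝒪] [IsDiscreteValuationRing 𝒪] [IsAdicComplete (maximalIdeal 𝒪) 𝒪] in
/-- The relations of a higher level are among those of a lower one. -/
theorem span_relations_antitone {v : Fin r → ℕ} (hv : ∀ j, n ≤ v j) :
    Ideal.span (Set.range fun j : Fin r =>
        ((1 + MvPowerSeries.X j) ^ (ℓ ^ v j) - 1 : MvPowerSeries (Fin r) 𝒪)) ≤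
      Ideal.span (Set.range fun j : Fin r => (1 + MvPowerSeries.X j) ^ (ℓ ^ n) - 1) := by
  refine Ideal.span_le.mpr ?_
  rintro _ ⟨j, rfl⟩
  obtain ⟨c, hc⟩ := Nat.pow_dvd_pow ℓ (hv j)
  refine Ideal.mem_of_dvd _ ?_ (Ideal.subset_span ⟨j, rfl⟩)
  change (1 + MvPowerSeries.X j) ^ (ℓ ^ n) - 1 ∣ (1 + MvPowerSeries.X j) ^ (ℓ ^ v j) - 1
  rw [hc, pow_mul]
  exact sub_one_dvd_pow_sub_one _ c

namespace TWLevel

variable {R : Type} [CommRing R] [Algebra 𝒪 R] {M : Type} [AddCommGroup M] [Module R M]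
  (L : TWLevel 𝒪 ℓ n r d R M)

/-- The variables can be sent to elements lifting the `s j - 1`. -/
theorem exists_lift [Nontrivial R] :
    ∃ φ : MvPowerSeries (Fin r) 𝒪 →ₐ[𝒪] MvPowerSeries (Fin r) 𝒪,
      ∀ j, L.γ (φ (MvPowerSeries.X j)) = L.s j - 1 := by
  choose lift hlift using L.γ_surjective
  have hx : ∀ j, lift (L.s j - 1) ∈ maximalIdeal (MvPowerSeries (Fin r) 𝒪) := fun j => by
    rw [mem_maximalIdeal, mem_nonunits_iff]
    intro hu
    have h1 : IsUnit (L.τ (L.s j - 1)) := (hlift (L.s j - 1) ▸ hu.map L.γ).map L.τ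
    rw [map_sub, map_one, L.τ_s, sub_self] at h1
    exact not_isUnit_zero h1
  exact ⟨TangentBound.evalHom _ hx, fun j => by rw [TangentBound.evalHom_X _ hx, hlift]⟩

variable {φ : MvPowerSeries (Fin r) 𝒪 →ₐ[𝒪] MvPowerSeries (Fin r) 𝒪}
  (hφ : ∀ j, L.γ (φ (MvPowerSeries.X j)) = L.s j - 1)

include hφ

omit [IsDomain 𝒪] [IsDiscreteValuationRing 𝒪] [IsAdicComplete (maximalIdeal 𝒪) 𝒪] in
/-- The relations `(1 + Xⱼ) ^ k - 1` generate the ideal of the `s j ^ k - 1`. -/
theorem map_relations (k : Fin r → ℕ) :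
    (Ideal.span (Set.range fun j : Fin r =>
        ((1 + MvPowerSeries.X j) ^ k j - 1 : MvPowerSeries (Fin r) 𝒪))).map
      (L.γ.comp φ).toRingHom = Ideal.span (Set.range fun j => L.s j ^ k j - 1) := by
  rw [Ideal.map_span, ← Set.range_comp]
  congr 2
  funext j
  simp [hφ]

omit [IsDomain 𝒪] [IsDiscreteValuationRing 𝒪] [IsAdicComplete (maximalIdeal 𝒪) 𝒪] in
/-- The variables generate the ideal of the `s j - 1`. -/
theorem map_span_X :
    (Ideal.span (Set.range (MvPowerSeries.X (R := 𝒪)))).map (L.γ.comp φ).toRingHom =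
      Ideal.span (Set.range fun j => L.s j - 1) := by
  simpa using L.map_relations hφ fun _ => 1

omit hφ

/-- The coordinates of `M_Q` attached to `d` of its elements. -/
noncomputable def coordMap (φ : MvPowerSeries (Fin r) 𝒪 →ₐ[𝒪] MvPowerSeries (Fin r) 𝒪)
    (y : Fin d → L.Mn) : (Fin d → MvPowerSeries (Fin r) 𝒪) →ₗ[𝒪] L.Mn where
  toFun c := ∑ i, L.γ (φ (c i)) • y i
  map_add' c c' := by simp [add_smul, Finset.sum_add_distrib]
  map_smul' a c := by simp [Finset.smul_sum]

omit [IsDomain 𝒪] [IsDiscreteValuationRing 𝒪] [IsAdicComplete (maximalIdeal 𝒪) 𝒪] in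
/-- The coordinates are semilinear along `γ ∘ φ`. -/
theorem coordMap_smul (y : Fin d → L.Mn) (h : MvPowerSeries (Fin r) 𝒪)
    (c : Fin d → MvPowerSeries (Fin r) 𝒪) :
    L.coordMap φ y (h • c) = L.γ (φ h) • L.coordMap φ y c := by
  simp [coordMap, Finset.smul_sum, mul_smul]

omit [IsDomain 𝒪] [IsDiscreteValuationRing 𝒪] [IsAdicComplete (maximalIdeal 𝒪) 𝒪] in
/-- Vectors with entries in `I` land in `γφ(I) M_Q`. -/
theorem coordMap_mem (y : Fin d → L.Mn) {I : Ideal (MvPowerSeries (Fin r) 𝒪)}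
    {c : Fin d → MvPowerSeries (Fin r) 𝒪} (hc : ∀ i, c i ∈ I) :
    L.coordMap φ y c ∈ I.map (L.γ.comp φ).toRingHom • (⊤ : Submodule L.Rn L.Mn) :=
  Submodule.sum_mem _ (t := Finset.univ) fun i _ => Submodule.smul_mem_smul
    (Ideal.mem_map_of_mem (L.γ.comp φ).toRingHom (hc i)) (Submodule.mem_top (x := y i))

include hφ

omit [IsAdicComplete (maximalIdeal 𝒪) 𝒪] in
/-- By Nakayama, lifts of a basis of `M` generate `M_Q`. -/
theorem coordMap_surjective [Module 𝒪 M] [IsScalarTower 𝒪 R M] (e : Module.Basis (Fin d) 𝒪 M)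
    {y : Fin d → L.Mn} (hy : ∀ i, L.cor (y i) = e i) :
    Function.Surjective (L.coordMap φ y) := by
  intro z
  have halg : ∀ a : 𝒪, (L.γ.comp φ).toRingHom (algebraMap 𝒪 _ a) = algebraMap 𝒪 L.Rn a :=
    AlgHom.commutes (L.γ.comp φ)
  refine (surjective_of_nakayama (L.γ.comp φ).toRingHom (N := L.Mn) (O := 𝒪) (algebraMap 𝒪 _)
    (fun a w => by rw [halg, algebraMap_smul]) span_X_le_maximalIdeal y (fun w => ?_) z).imp
    fun c h => h.symm
  refine ⟨fun i => algebraMap 𝒪 _ (e.repr (L.cor w) i),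
    w - ∑ i, algebraMap 𝒪 L.Rn (e.repr (L.cor w) i) • y i, ?_, ?_⟩
  · rw [L.map_span_X hφ]
    refine L.ker_cor _ ?_
    simp only [map_sub, map_sum, L.cor_smul, hy, AlgHom.commutes]
    simp only [algebraMap_smul, e.sum_repr, sub_self]
  · simp only [halg]
    exact (add_sub_cancel _ _).symm

/-- Once surjective, the coordinates have the relations `(1 + Xⱼ) ^ ℓ ^ v j - 1` as kernel, as the
group algebra has the same rank as `M_Q`. -/
theorem coordMap_eq_zero_iff [Fact ℓ.Prime] (hℓ : (ℓ : 𝒪) ∈ maximalIdeal 𝒪) {y : Fin d → L.Mn}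
    (hy : Function.Surjective (L.coordMap φ y)) (c : Fin d → MvPowerSeries (Fin r) 𝒪) :
    L.coordMap φ y c = 0 ↔ ∀ i, c i ∈ Ideal.span (Set.range fun j : Fin r =>
      ((1 + MvPowerSeries.X j) ^ (ℓ ^ L.v j) - 1 : MvPowerSeries (Fin r) 𝒪)) := by
  obtain ⟨q, -, hqsurj, hqker⟩ := exists_toGroupAlg (v := L.v) hℓ
  set Jv := Ideal.span (Set.range fun j : Fin r =>
    ((1 + MvPowerSeries.X j) ^ (ℓ ^ L.v j) - 1 : MvPowerSeries (Fin r) 𝒪))
  have hEJv : ∀ c : Fin d → MvPowerSeries (Fin r) 𝒪, (∀ i, c i ∈ Jv) →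
      L.coordMap φ y c = 0 := fun c hc => by
    have hann : Jv.map (L.γ.comp φ).toRingHom ≤ Module.annihilator L.Rn L.Mn := by
      rw [L.map_relations hφ]
      refine Ideal.span_le.mpr ?_
      rintro _ ⟨j, rfl⟩
      exact Module.mem_annihilator.2 fun x => by rw [sub_smul, one_smul, L.s_pow, sub_self]
    refine Submodule.smul_induction_on (L.coordMap_mem y hc) ?_
      fun a b ha hb => by rw [ha, hb, add_zero]
    exact fun a ha x _ => Module.mem_annihilator.1 (hann ha) x
  refine ⟨fun hc i => ?_, hEJv c⟩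
  let qd : (Fin d → MvPowerSeries (Fin r) 𝒪) →ₗ[𝒪] (Fin d → GroupAlgV 𝒪 ℓ L.v) :=
    q.toLinearMap.compLeft (Fin d)
  have hqd : ∀ c i, qd c i = q (c i) := fun _ _ => rfl
  choose sec hsec using hqsurj
  have hEq : ∀ c c' : Fin d → MvPowerSeries (Fin r) 𝒪, qd c = qd c' →
      L.coordMap φ y c = L.coordMap φ y c' := by
    intro c c' h
    rw [← sub_eq_zero, ← map_sub]
    refine hEJv _ fun i => ?_
    rw [← hqker, RingHom.mem_ker, Pi.sub_apply, map_sub, sub_eq_zero]
    exact congrFun h i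
  let Eb : (Fin d → GroupAlgV 𝒪 ℓ L.v) →ₗ[𝒪] L.Mn :=
    { toFun := fun a => L.coordMap φ y fun i => sec (a i)
      map_add' := fun a a' => by
        rw [← map_add]
        exact hEq _ _ (funext fun i => by simp [hqd, hsec])
      map_smul' := fun t a => by
        rw [RingHom.id_apply, ← map_smul]
        exact hEq _ _ (funext fun i => by simp [hqd, hsec]) }
  have hEb : ∀ c, Eb (qd c) = L.coordMap φ y c :=
    fun c => hEq _ _ (funext fun i => by simp [hqd, hsec])
  have hinj : Function.Injective Eb := by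
    refine injective_of_finrank_eq Eb (fun z => ?_) ?_
    · obtain ⟨c, hc⟩ := hy z
      exact ⟨qd c, (hEb c).trans hc⟩
    · rw [L.finrank_eq, Module.finrank_pi_fintype]
      simp [(MonoidAlgebra.coeffLinearEquiv 𝒪).finrank_eq]
  have h0 : qd c = 0 := hinj (by rw [hEb, hc, map_zero])
  rw [← hqker, RingHom.mem_ker]
  exact congrFun h0 i

omit hφ

/-- A Taylor–Wiles level gives a patching level: the quotient of `M_Q` by the relations of
level `n`. -/
theorem nonempty_patchingLevel [Fact ℓ.Prime] (hℓ : (ℓ : 𝒪) ∈ maximalIdeal 𝒪)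
    {R : Type} [CommRing R] [Nontrivial R] [Algebra 𝒪 R]
    {M : Type} [AddCommGroup M] [Module R M] [Module 𝒪 M] [IsScalarTower 𝒪 R M]
    (e : Module.Basis (Fin d) 𝒪 M) (L : TWLevel 𝒪 ℓ n r d R M) :
    Nonempty (Algebra.PatchingLevel 𝒪 r R M
      (Ideal.span (Set.range fun j : Fin r =>
        ((1 + MvPowerSeries.X j) ^ (ℓ ^ n) - 1 : MvPowerSeries (Fin r) 𝒪)))) := by
  obtain ⟨φ, hφ⟩ := L.exists_lift
  choose y hy using fun i => L.cor_surjective (e i)
  have hEsurj := L.coordMap_surjective hφ e hy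
  have hcoord : ∀ {I : Ideal (MvPowerSeries (Fin r) 𝒪)} {z : L.Mn},
      z ∈ I.map (L.γ.comp φ).toRingHom • (⊤ : Submodule L.Rn L.Mn) →
      ∃ c, (∀ i, c i ∈ I) ∧ L.coordMap φ y c = z := fun hz =>
    exists_preimage_of_mem_map_smul (f := (L.γ.comp φ).toRingHom)
      (g := (L.coordMap φ y).toAddMonoidHom) (fun a c => L.coordMap_smul (φ := φ) y a c) hEsurj hz
  set J := Ideal.span (Set.range fun j : Fin r =>
    ((1 + MvPowerSeries.X j) ^ (ℓ ^ n) - 1 : MvPowerSeries (Fin r) 𝒪))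
  set S : Submodule L.Rn L.Mn := J.map (L.γ.comp φ).toRingHom • ⊤ with hS
  have hScor : ∀ z ∈ S, L.cor z = 0 := by
    intro z hz
    rw [hS, L.map_relations hφ fun _ => ℓ ^ n] at hz
    refine Submodule.smul_induction_on hz ?_ fun a b ha hb => by rw [map_add, ha, hb, add_zero]
    intro a ha w _
    have hle : Ideal.span (Set.range fun j => L.s j ^ (ℓ ^ n) - 1) ≤ RingHom.ker L.τ :=
      Ideal.span_le.mpr (by rintro _ ⟨j, rfl⟩; simp [L.τ_s])
    rw [L.cor_smul, RingHom.mem_ker.mp (hle ha), zero_smul]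
  let P : L.Mn ⧸ S →+ M := QuotientAddGroup.lift S.toAddSubgroup L.cor fun z hz => hScor z hz
  let _ : Module (MvPowerSeries (Fin r) 𝒪) (L.Mn ⧸ S) :=
    Module.compHom (L.Mn ⧸ S) (L.γ : MvPowerSeries (Fin r) 𝒪 →+* L.Rn)
  have hsmul : ∀ (f : MvPowerSeries (Fin r) 𝒪) (z : L.Mn), f • (Submodule.Quotient.mk z : L.Mn ⧸ S)
      = Submodule.Quotient.mk (L.γ f • z) := fun f z => rfl
  have hsum : ∀ c : Fin d → MvPowerSeries (Fin r) 𝒪,
      ∑ i, φ (c i) • (Submodule.Quotient.mk (y i) : L.Mn ⧸ S) =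
        Submodule.Quotient.mk (L.coordMap φ y c) := fun c => by
    simp only [hsmul]
    simp only [← Submodule.mkQ_apply, ← map_sum]
    rfl
  refine ⟨{
    N := L.Mn ⧸ S
    φ := φ
    ψ := L.τ.comp L.γ
    ψ_surjective := L.τ_surjective.comp L.γ_surjective
    ψ_φ_X := fun i => by simp [hφ, L.τ_s]
    π := P
    π_smul := fun f z => ?_
    π_surjective := fun m => ?_
    ker_π := fun z => ?_
    d := d
    b := fun i => Submodule.Quotient.mk (y i)
    b_span := fun z => ?_
    b_rel := fun c => ?_ }⟩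
  · obtain ⟨z, rfl⟩ := Submodule.Quotient.mk_surjective S z
    exact L.cor_smul (L.γ f) z
  · obtain ⟨z, hz⟩ := L.cor_surjective m
    exact ⟨Submodule.Quotient.mk z, hz⟩
  · obtain ⟨z, rfl⟩ := Submodule.Quotient.mk_surjective S z
    constructor
    · intro hz
      obtain ⟨c, hc, rfl⟩ := hcoord (L.map_span_X hφ ▸ L.ker_cor z hz)
      refine hsum c ▸ Submodule.sum_mem _ fun i _ => Submodule.smul_mem_smul ?_ trivial
      have := Ideal.mem_map_of_mem φ (hc i)
      rw [Ideal.map_span, ← Set.range_comp] at this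
      exact this
    · intro hz
      refine Submodule.smul_induction_on hz ?_ fun a b ha hb => by rw [map_add, ha, hb, add_zero]
      intro a ha w _
      obtain ⟨w, rfl⟩ := Submodule.Quotient.mk_surjective S w
      rw [hsmul]
      change L.cor (L.γ a • w) = 0
      have hle : Ideal.span (Set.range fun i : Fin r => φ (MvPowerSeries.X i)) ≤
          RingHom.ker (L.τ.comp L.γ) :=
        Ideal.span_le.mpr (by rintro _ ⟨j, rfl⟩; simp [hφ, L.τ_s])
      rw [L.cor_smul, show L.τ (L.γ a) = 0 from RingHom.mem_ker.mp (hle ha), zero_smul]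
  · obtain ⟨z, rfl⟩ := Submodule.Quotient.mk_surjective S z
    obtain ⟨c, hc⟩ := hEsurj z
    exact ⟨c, by rw [hsum, hc]⟩
  · rw [hsum, Submodule.Quotient.mk_eq_zero]
    refine ⟨fun h i => ?_, fun h => L.coordMap_mem y h⟩
    obtain ⟨c', hc', he⟩ := hcoord h
    have h1 := (L.coordMap_eq_zero_iff hφ hℓ hEsurj (c - c')).1 (by rw [map_sub, he, sub_self]) i
    simpa using add_mem (span_relations_antitone L.le_v h1) (hc' i)

end TWLevel

omit [IsAdicComplete (maximalIdeal 𝒪) 𝒪] in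
/-- Diamond operators `δ` making `M_Q` free over the group algebra give the rank hypothesis. -/
theorem finrank_eq_of_bijective [Fact ℓ.Prime] {v : Fin r → ℕ} {Mn : Type} [AddCommGroup Mn]
    [Module 𝒪 Mn] (δ : DeltaV ℓ v →* Module.End 𝒪 Mn) (b : Fin d → Mn)
    (hb : Function.Bijective fun c : Fin d → GroupAlgV 𝒪 ℓ v =>
      ∑ i, MonoidAlgebra.lift 𝒪 (Module.End 𝒪 Mn) (DeltaV ℓ v) δ (c i) (b i)) :
    Module.Finite 𝒪 Mn ∧ Module.Free 𝒪 Mn ∧ Module.finrank 𝒪 Mn = d * ∏ j, ℓ ^ v j := by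
  let f : (Fin d → GroupAlgV 𝒪 ℓ v) →ₗ[𝒪] Mn :=
    { toFun := fun c => ∑ i, MonoidAlgebra.lift 𝒪 (Module.End 𝒪 Mn) (DeltaV ℓ v) δ (c i) (b i)
      map_add' := fun c c' => by simp [Finset.sum_add_distrib]
      map_smul' := fun a c => by simp [Finset.smul_sum] }
  let e := LinearEquiv.ofBijective f hb
  refine ⟨Module.Finite.equiv e, Module.Free.of_equiv e, ?_⟩
  rw [← e.finrank_eq, Module.finrank_pi_fintype]
  simp [(MonoidAlgebra.coeffLinearEquiv 𝒪).finrank_eq]

omit [IsDomain 𝒪] [IsDiscreteValuationRing 𝒪] [IsAdicComplete (maximalIdeal 𝒪) 𝒪] in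
/-- If the diamond operators and the Galois elements generate the same image, coinvariants agree. -/
theorem ker_cor_of_diamond {Rn Mn : Type} [CommRing Rn] [Algebra 𝒪 Rn] [AddCommGroup Mn]
    [Module Rn Mn] [Module 𝒪 Mn] [IsScalarTower 𝒪 Rn Mn] {M : Type} [AddCommGroup M]
    (cor : Mn →+ M) (s : Fin r → Rn) (D : Fin r → Module.End 𝒪 Mn)
    (hDs : ∀ j z, ∃ w, D j z - z = s j • w - w)
    (hker : ∀ z, cor z = 0 → z ∈ ⨆ j, LinearMap.range (D j - 1)) :
    ∀ z, cor z = 0 → z ∈ Ideal.span (Set.range fun j => s j - 1) • (⊤ : Submodule Rn Mn) := by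
  intro z hz
  have hle : (⨆ j, LinearMap.range (D j - 1)) ≤
      (Ideal.span (Set.range fun j => s j - 1) • (⊤ : Submodule Rn Mn)).restrictScalars 𝒪 := by
    refine iSup_le fun j => ?_
    rintro _ ⟨z, rfl⟩
    obtain ⟨w, hw⟩ := hDs j z
    rw [Submodule.restrictScalars_mem, LinearMap.sub_apply, Module.End.one_apply, hw,
      show s j • w - w = (s j - 1) • w by rw [sub_smul, one_smul]]
    exact Submodule.smul_mem_smul (Ideal.subset_span ⟨j, rfl⟩) trivial
  exact hle (hker z hz)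

end Fermat.Agent.Patching
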