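import Fermat.Agent.Patching.Limit
import Fermat.Agent.TangentBound.PowerSeries
import Mathlib.Algebra.MonoidAlgebra.Basic
import Mathlib.Data.ZMod.Basic
import Mathlib.LinearAlgebra.Finsupp.VectorSpace

/-!
# The group algebra `𝒪[(ℤ/ℓⁿ)ʳ]` as a quotient of `𝒪⟦X₁,…,X_r⟧`

For `ℓ` in the maximal ideal of `𝒪` the variable `Xⱼ` goes to `gⱼ - 1`, with `gⱼ` the standard
generators. The map is surjective with kernel spanned by the `(1 + Xⱼ) ^ ℓ^(vⱼ) - 1`.
-/

set_option autoImplicit false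

namespace Fermat.Agent.Patching

open IsLocalRing

variable {𝒪 : Type} [CommRing 𝒪]

/-- The group `∏ⱼ ℤ/ℓ^(vⱼ)`, written multiplicatively. -/
abbrev DeltaV (ℓ : ℕ) {r : ℕ} (v : Fin r → ℕ) : Type :=
  (j : Fin r) → Multiplicative (ZMod (ℓ ^ v j))

/-- The group `(ℤ/ℓⁿ)ʳ`, written multiplicatively. -/
abbrev Delta (ℓ n r : ℕ) : Type := DeltaV ℓ (fun _ : Fin r => n)

/-- The `j`-th standard generator of `∏ⱼ ℤ/ℓ^(vⱼ)`. -/
def genV {ℓ r : ℕ} {v : Fin r → ℕ} (j : Fin r) : DeltaV ℓ v :=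
  Pi.mulSingle j (Multiplicative.ofAdd 1)

/-- The group algebra of `∏ⱼ ℤ/ℓ^(vⱼ)`. -/
abbrev GroupAlgV (𝒪 : Type) [CommRing 𝒪] (ℓ : ℕ) {r : ℕ} (v : Fin r → ℕ) : Type :=
  MonoidAlgebra 𝒪 (DeltaV ℓ v)

/-- The `j`-th generator has order dividing `ℓ ^ v j`. -/
theorem gen_pow_eq_one {ℓ r : ℕ} {v : Fin r → ℕ} (j : Fin r) :
    genV (ℓ := ℓ) (v := v) j ^ (ℓ ^ v j) = 1 := by
  rw [genV, ← Pi.mulSingle_pow, ← ofAdd_nsmul]
  simp

/-- Monoid homs out of `∏ⱼ ℤ/ℓ^(vⱼ)` agreeing on the generators are equal. -/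
theorem delta_hom_ext {ℓ r : ℕ} [NeZero ℓ] {v : Fin r → ℕ} {A : Type} [CommMonoid A]
    {f g : DeltaV ℓ v →* A} (h : ∀ j, f (genV j) = g (genV j)) : f = g := by
  refine MonoidHom.functions_ext A f g fun j x => ?_
  have hx : Pi.mulSingle (M := fun j : Fin r => Multiplicative (ZMod (ℓ ^ v j))) j x =
      genV j ^ (x.toAdd.val) := by
    rw [genV, ← Pi.mulSingle_pow, ← ofAdd_nsmul, nsmul_eq_mul, mul_one, ZMod.natCast_zmod_val]
    rfl
  rw [hx, map_pow, map_pow, h]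

variable {r : ℕ}

/-- Two algebra maps out of a power series ring into a Noetherian local ring agree as soon as
they agree on the variables, these mapping into the maximal ideal. -/
theorem algHom_ext_of_X {S : Type} [CommRing S] [Algebra 𝒪 S] [IsLocalRing S]
    [IsNoetherianRing S] {f g : MvPowerSeries (Fin r) 𝒪 →ₐ[𝒪] S}
    (hX : ∀ i, f (MvPowerSeries.X i) ∈ maximalIdeal S)
    (h : ∀ i, f (MvPowerSeries.X i) = g (MvPowerSeries.X i)) : f = g := by
  refine AlgHom.ext fun p => sub_eq_zero.mp ?_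
  refine IsHausdorff.haus (I := maximalIdeal S)
    (IsHausdorff.of_isLocalRing _ _ (maximalIdeal.isMaximal S).ne_top) _ fun k => ?_
  rw [SModEq.zero, smul_eq_mul, Ideal.mul_top]
  let c := MvPolynomial.coeToMvPowerSeries.algHom (R := 𝒪) (σ := Fin r) 𝒪
  have hpoly : f.comp c = g.comp c := by
    refine MvPolynomial.algHom_ext fun i => ?_
    simpa [c, MvPolynomial.coeToMvPowerSeries.algHom] using h i
  have hc : ∀ q : MvPolynomial (Fin r) 𝒪, c q = (q : MvPowerSeries (Fin r) 𝒪) := fun q => by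
    simp [c, MvPolynomial.coeToMvPowerSeries.algHom]
  set q := MvPowerSeries.truncTotal k p
  have htail : p - (q : MvPowerSeries (Fin r) 𝒪) ∈
      Ideal.span (Set.range (MvPowerSeries.X (R := 𝒪))) ^ k :=
    mem_span_X_pow fun e he => by
      rw [map_sub, MvPolynomial.coeff_coe, MvPowerSeries.coeff_truncTotal _ he, sub_self]
  have hle : ∀ F : MvPowerSeries (Fin r) 𝒪 →ₐ[𝒪] S,
      (∀ i, F (MvPowerSeries.X i) ∈ maximalIdeal S) →
      F (p - (q : MvPowerSeries (Fin r) 𝒪)) ∈ maximalIdeal S ^ k := by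
    intro F hF
    have := Ideal.mem_map_of_mem F htail
    rw [Ideal.map_pow] at this
    refine Ideal.pow_right_mono ?_ k this
    rw [Ideal.map_span, Ideal.span_le]
    rintro _ ⟨_, ⟨i, rfl⟩, rfl⟩
    exact hF i
  have h1 := hle f hX
  have h2 := hle g fun i => h i ▸ hX i
  have h3 : f (q : MvPowerSeries (Fin r) 𝒪) = g (q : MvPowerSeries (Fin r) 𝒪) := by
    rw [← hc]; exact DFunLike.congr_fun hpoly q
  have := sub_mem h1 h2
  rwa [map_sub, map_sub, h3, sub_sub_sub_cancel_right] at this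

variable [IsDomain 𝒪] [IsDiscreteValuationRing 𝒪] [IsAdicComplete (maximalIdeal 𝒪) 𝒪]
  {ℓ : ℕ} {v : Fin r → ℕ}

/-- The augmentation of the group algebra. -/
noncomputable def augmentation (𝒪 : Type) [CommRing 𝒪] (ℓ : ℕ) {r : ℕ} (v : Fin r → ℕ) :
    GroupAlgV 𝒪 ℓ v →ₐ[𝒪] 𝒪 :=
  MonoidAlgebra.lift 𝒪 𝒪 (DeltaV ℓ v) 1

omit [IsAdicComplete (maximalIdeal 𝒪) 𝒪] in
theorem comap_augmentation_le [Fact ℓ.Prime] (hℓ : (ℓ : 𝒪) ∈ maximalIdeal 𝒪)
    (P : Ideal (GroupAlgV 𝒪 ℓ v)) [P.IsMaximal] :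
    (maximalIdeal 𝒪).comap (augmentation 𝒪 ℓ v) ≤ P := by
  have : Module.Finite 𝒪 (GroupAlgV 𝒪 ℓ v) := inferInstance
  have hPm : ∀ a ∈ maximalIdeal 𝒪, algebraMap 𝒪 (GroupAlgV 𝒪 ℓ v) a ∈ P := fun a ha => by
    have : (P.comap (algebraMap 𝒪 (GroupAlgV 𝒪 ℓ v))).IsMaximal :=
      Ideal.isMaximal_comap_of_isIntegral_of_isMaximal P
    rw [← Ideal.mem_comap, IsLocalRing.eq_maximalIdeal this]
    exact ha
  let _ : Field (GroupAlgV 𝒪 ℓ v ⧸ P) := Ideal.Quotient.field P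
  have hres : (ℓ : GroupAlgV 𝒪 ℓ v ⧸ P) = 0 := by
    rw [← map_natCast (Ideal.Quotient.mk P), ← map_natCast (algebraMap 𝒪 (GroupAlgV 𝒪 ℓ v))]
    exact Ideal.Quotient.eq_zero_iff_mem.mpr (hPm _ hℓ)
  have : CharP (GroupAlgV 𝒪 ℓ v ⧸ P) ℓ :=
    (CharP.charP_iff_prime_eq_zero Fact.out).mpr hres
  have hgP : ∀ g : DeltaV ℓ v, MonoidAlgebra.of 𝒪 _ g - 1 ∈ P := by
    intro g
    set n := ∑ j, v j with hn
    have h1 : g ^ (ℓ ^ n) = 1 := by
      funext j
      obtain ⟨c, hc⟩ : ℓ ^ v j ∣ ℓ ^ n :=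
        Nat.pow_dvd_pow ℓ (Finset.single_le_sum (fun _ _ => Nat.zero_le _) (Finset.mem_univ j))
      refine Multiplicative.toAdd.injective ?_
      rw [Pi.pow_apply, Pi.one_apply, hc, pow_mul, toAdd_pow, toAdd_pow]
      simp
    have h2 : (Ideal.Quotient.mk P (MonoidAlgebra.of 𝒪 _ g) - 1) ^ (ℓ ^ n) = 0 := by
      rw [sub_pow_char_pow, one_pow, ← map_pow, ← map_pow, h1, map_one, map_one, sub_self]
    refine Ideal.Quotient.eq_zero_iff_mem.mp ?_
    rw [map_sub, map_one]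
    exact eq_zero_of_pow_eq_zero h2
  have key : ∀ x, x - algebraMap 𝒪 _ (augmentation 𝒪 ℓ v x) ∈ P := by
    intro x
    induction x using MonoidAlgebra.induction_on with
    | of g =>
      rw [show augmentation 𝒪 ℓ v (MonoidAlgebra.of 𝒪 _ g) = 1 by simp [augmentation], map_one]
      exact hgP g
    | add x y hx hy => simpa [add_sub_add_comm] using add_mem hx hy
    | smul a x hx =>
      rw [map_smul, smul_eq_mul, map_mul, Algebra.smul_def, ← mul_sub]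
      exact P.mul_mem_left _ hx
  intro x hx
  simpa using add_mem (key x) (hPm _ hx)

omit [IsAdicComplete (maximalIdeal 𝒪) 𝒪] in
/-- The group algebra is local, its maximal ideal lying over that of `𝒪`. -/
theorem isLocalRing_groupAlg [Fact ℓ.Prime] (hℓ : (ℓ : 𝒪) ∈ maximalIdeal 𝒪) :
    IsLocalRing (GroupAlgV 𝒪 ℓ v) ∧
      ∀ P : Ideal (GroupAlgV 𝒪 ℓ v), P.IsMaximal →
        P = (maximalIdeal 𝒪).comap (augmentation 𝒪 ℓ v) := by
  have hsurj : Function.Surjective (augmentation 𝒪 ℓ v) := fun a =>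
    ⟨algebraMap 𝒪 _ a, AlgHom.commutes _ _⟩
  have hmax : ((maximalIdeal 𝒪).comap (augmentation 𝒪 ℓ v)).IsMaximal :=
    Ideal.comap_isMaximal_of_surjective _ hsurj
  have huniq : ∀ P : Ideal (GroupAlgV 𝒪 ℓ v), P.IsMaximal →
      P = (maximalIdeal 𝒪).comap (augmentation 𝒪 ℓ v) := fun P hP =>
    (hmax.eq_of_le hP.ne_top (comap_augmentation_le hℓ P)).symm
  exact ⟨IsLocalRing.of_unique_max_ideal ⟨_, hmax, huniq⟩, huniq⟩

/-- The evaluation `𝒪⟦X⟧ → 𝒪[(ℤ/ℓⁿ)ʳ]`, `Xⱼ ↦ [eⱼ] - 1`, is surjective with kernel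
`((1 + Xⱼ)^(ℓⁿ) - 1)ⱼ`. -/
theorem exists_toGroupAlg [Fact ℓ.Prime] (hℓ : (ℓ : 𝒪) ∈ maximalIdeal 𝒪) :
    ∃ q : MvPowerSeries (Fin r) 𝒪 →ₐ[𝒪] GroupAlgV 𝒪 ℓ v,
      (∀ j, q (MvPowerSeries.X j) = MonoidAlgebra.of 𝒪 _ (genV j) - 1) ∧
      Function.Surjective q ∧
      RingHom.ker q = Ideal.span (Set.range fun j : Fin r =>
        ((1 + MvPowerSeries.X j) ^ (ℓ ^ v j) - 1 : MvPowerSeries (Fin r) 𝒪)) := by
  classical
  obtain ⟨hA, huniq⟩ := isLocalRing_groupAlg (v := v) hℓ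
  have hmA : maximalIdeal (GroupAlgV 𝒪 ℓ v) =
      (maximalIdeal 𝒪).comap (augmentation 𝒪 ℓ v) := huniq _ inferInstance
  have : IsLocalHom (algebraMap 𝒪 (GroupAlgV 𝒪 ℓ v)) := ⟨fun a ha => by
    have h := ha.map (augmentation 𝒪 ℓ v)
    rwa [AlgHom.commutes] at h⟩
  have : IsNoetherianRing (GroupAlgV 𝒪 ℓ v) := IsNoetherianRing.of_finite 𝒪 _
  have : IsAdicComplete (maximalIdeal (GroupAlgV 𝒪 ℓ v)) (GroupAlgV 𝒪 ℓ v) :=
    IsLocalRing.isAdicComplete_of_module_finite (𝒪 := 𝒪)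
  let x : Fin r → GroupAlgV 𝒪 ℓ v := fun j => MonoidAlgebra.of 𝒪 _ (genV j) - 1
  have hx : ∀ j, x j ∈ maximalIdeal (GroupAlgV 𝒪 ℓ v) := fun j => by
    simp [hmA, x, augmentation]
  let q : MvPowerSeries (Fin r) 𝒪 →ₐ[𝒪] GroupAlgV 𝒪 ℓ v := TangentBound.evalHom x hx
  have hqX : ∀ j, q (MvPowerSeries.X j) = x j := TangentBound.evalHom_X x hx
  set J := Ideal.span (Set.range fun j : Fin r =>
        ((1 + MvPowerSeries.X j) ^ (ℓ ^ v j) - 1 : MvPowerSeries (Fin r) 𝒪)) with hJ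
  let π := Ideal.Quotient.mkₐ 𝒪 J
  have hJne : J ≠ ⊤ := ne_top_of_le_ne_top
    (maximalIdeal.isMaximal (MvPowerSeries (Fin r) 𝒪)).ne_top
    (Ideal.span_le.mpr (by
      rintro _ ⟨j, rfl⟩
      simp [mem_maximalIdeal, MvPowerSeries.isUnit_iff_constantCoeff]))
  have : Nontrivial (MvPowerSeries (Fin r) 𝒪 ⧸ J) := Ideal.Quotient.nontrivial_iff.mpr hJne
  have : IsLocalRing (MvPowerSeries (Fin r) 𝒪 ⧸ J) :=
    IsLocalRing.of_surjective' (Ideal.Quotient.mk J) Ideal.Quotient.mk_surjective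
  have : IsNoetherianRing (MvPowerSeries (Fin r) 𝒪 ⧸ J) :=
    isNoetherianRing_of_surjective _ _ (Ideal.Quotient.mk J) Ideal.Quotient.mk_surjective
  have hu : ∀ j, (π (1 + MvPowerSeries.X j)) ^ (ℓ ^ v j) = 1 := fun j => by
    rw [← map_pow, ← sub_eq_zero, ← map_one π, ← map_sub]
    exact Ideal.Quotient.eq_zero_iff_mem.mpr (Ideal.subset_span ⟨j, rfl⟩)
  let z : (j : Fin r) → Multiplicative (ZMod (ℓ ^ v j)) →* MvPowerSeries (Fin r) 𝒪 ⧸ J := fun j =>
    { toFun := fun a => π (1 + MvPowerSeries.X j) ^ a.toAdd.val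
      map_one' := by simp
      map_mul' := fun a b => by
        rw [← pow_add, toAdd_mul, ZMod.val_add, ← pow_eq_pow_mod _ (hu j)] }
  let F : DeltaV ℓ v →* MvPowerSeries (Fin r) 𝒪 ⧸ J :=
    { toFun := fun g => ∏ j, z j (g j)
      map_one' := by simp
      map_mul' := fun a b => by simp [Finset.prod_mul_distrib] }
  have hFgen : ∀ j, F (genV j) = π (1 + MvPowerSeries.X j) := by
    intro j
    change ∏ i, z i (genV j i) = _
    rw [Finset.prod_eq_single j (fun i _ hi => by simp [genV, hi]) (by simp)]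
    simp only [genV, Pi.mulSingle_eq_same, z, MonoidHom.coe_mk, OneHom.coe_mk, toAdd_ofAdd]
    rcases Nat.eq_zero_or_pos (v j) with h0 | hn
    · have h1 : π (1 + MvPowerSeries.X j) = 1 := by simpa [h0] using hu j
      simp [h1]
    · have : Fact (1 < ℓ ^ v j) := ⟨Nat.one_lt_pow hn.ne' (Fact.out : ℓ.Prime).one_lt⟩
      simp [ZMod.val_one]
  let e : GroupAlgV 𝒪 ℓ v →ₐ[𝒪] MvPowerSeries (Fin r) 𝒪 ⧸ J :=
    MonoidAlgebra.lift 𝒪 _ (DeltaV ℓ v) F
  have hleft : e.comp q = π := by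
    refine algHom_ext_of_X (fun i => ?_) (fun i => ?_)
    · simp only [AlgHom.comp_apply, hqX, x, e, map_sub, MonoidAlgebra.lift_of, hFgen, map_one,
        map_add, add_sub_cancel_left]
      refine (mem_maximalIdeal _).mpr fun hunit => ?_
      obtain ⟨g, hg⟩ := Ideal.Quotient.mk_surjective (hunit.unit⁻¹).val
      have h1 : π (MvPowerSeries.X i * g - 1) = 0 := by
        rw [map_sub, map_one, map_mul, sub_eq_zero,
          show π g = (hunit.unit⁻¹).val from hg]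
        exact hunit.mul_val_inv
      have h2 := (Ideal.span_le.mpr (by
        rintro _ ⟨j, rfl⟩; simp) : J ≤ RingHom.ker MvPowerSeries.constantCoeff)
        (Ideal.Quotient.eq_zero_iff_mem.mp h1)
      simp at h2
    · simp only [AlgHom.comp_apply, hqX, x, e, map_sub, MonoidAlgebra.lift_of, hFgen, map_one,
        map_add, add_sub_cancel_left]
  have hJle : J ≤ RingHom.ker q := Ideal.span_le.mpr (by
    rintro _ ⟨j, rfl⟩
    rw [SetLike.mem_coe, RingHom.mem_ker, map_sub, map_pow, map_add, map_one, hqX]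
    simp only [x, add_sub_cancel]
    rw [← map_pow, gen_pow_eq_one, map_one, sub_self])
  have hright : ∀ y, y ∈ q.range := by
    intro y
    induction y using MonoidAlgebra.induction_on with
    | of g =>
      let qbar : MvPowerSeries (Fin r) 𝒪 ⧸ J →ₐ[𝒪] GroupAlgV 𝒪 ℓ v :=
        Ideal.Quotient.liftₐ J q fun a ha => hJle ha
      have : (qbar : MvPowerSeries (Fin r) 𝒪 ⧸ J →* GroupAlgV 𝒪 ℓ v).comp F =
          MonoidAlgebra.of 𝒪 _ := by
        refine delta_hom_ext fun j => ?_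
        rw [MonoidHom.comp_apply, hFgen]
        change q (1 + MvPowerSeries.X j) = _
        simp [hqX, x]
      rw [← DFunLike.congr_fun this g]
      obtain ⟨f, hf⟩ := Ideal.Quotient.mk_surjective (F g)
      exact ⟨f, by rw [MonoidHom.comp_apply, ← hf]; rfl⟩
    | add a b ha hb => exact add_mem ha hb
    | smul a b hb => exact q.range.smul_mem hb a
  refine ⟨q, hqX, hright, le_antisymm (fun f hf => ?_) hJle⟩
  have := DFunLike.congr_fun hleft f
  rw [AlgHom.comp_apply, RingHom.mem_ker.mp hf, map_zero] at this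
  exact Ideal.Quotient.eq_zero_iff_mem.mp this.symm

end Fermat.Agent.Patching
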