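import Fermat.Agent.Patching.Limit
import Fermat.Agent.S57
import Mathlib.LinearAlgebra.FreeModule.PID

/-!
# Consequences of patching

A patching datum forces the base ring to be a finite free complete intersection over `𝒪`, acting
freely and faithfully on `M`.
-/

set_option autoImplicit false

namespace Fermat.Agent.Patching

open IsLocalRing

/-- The conclusion of the patching argument (`R = T` in the minimal case). -/
theorem conclusion_of_patchingDatum {𝒪 : Type} [CommRing 𝒪] [IsDomain 𝒪]
    [IsDiscreteValuationRing 𝒪] [IsAdicComplete (maximalIdeal 𝒪) 𝒪] [Finite (ResidueField 𝒪)]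
    {ℓ r : ℕ} (hℓ : (ℓ : 𝒪) ∈ maximalIdeal 𝒪) {R : Type} [CommRing R] [Algebra 𝒪 R]
    {M : Type} [AddCommGroup M] [Module R M] [Nontrivial M]
    (D : Algebra.PatchingDatum 𝒪 ℓ r R M) :
    Module.Free R M ∧ Module.Finite R M ∧ Module.annihilator R M = ⊥ ∧
      Module.Finite 𝒪 R ∧ Module.Free 𝒪 R ∧
      ∃ (ψ : MvPowerSeries (Fin r) 𝒪 →ₐ[𝒪] R) (f : Fin r → MvPowerSeries (Fin r) 𝒪),
        Function.Surjective ψ ∧
          RingHom.ker ψ = Ideal.span (Set.range f) ∧
          ∀ i, f i ∈ maximalIdeal (MvPowerSeries (Fin r) 𝒪) := by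
  obtain ⟨L⟩ := nonempty_patchingLevel_bot hℓ D
  obtain ⟨hfree, hann, hker⟩ := Fermat.Agent.S57.result L
  let := Module.compHom M (algebraMap 𝒪 R)
  have : IsScalarTower 𝒪 R M := IsScalarTower.of_algebraMap_smul fun _ _ => rfl
  obtain ⟨e, -⟩ := exists_basis bot_le L
  have hMfin : Module.Finite 𝒪 M := Module.Finite.of_basis e
  have hMfree : Module.Free 𝒪 M := Module.Free.of_basis e
  have hMfinR : Module.Finite R M := Module.Finite.of_restrictScalars_finite 𝒪 R M
  let B := Module.Free.chooseBasis R M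
  obtain ⟨j⟩ := B.index_nonempty
  let ι : R →ₗ[𝒪] M := ((LinearMap.id (R := R) (M := R)).smulRight (B j)).restrictScalars 𝒪
  let p : M →ₗ[𝒪] R := (B.coord j).restrictScalars 𝒪
  have hpι : ∀ x, p (ι x) = x := fun x => by simp [p, ι]
  have hRfin : Module.Finite 𝒪 R := Module.Finite.of_surjective p fun x => ⟨ι x, hpι x⟩
  have : Module.IsTorsionFree 𝒪 R :=
    Function.Injective.moduleIsTorsionFree ι (Function.LeftInverse.injective hpι) (map_smul ι)
  have hRfree : Module.Free 𝒪 R := Module.free_of_finite_type_torsion_free'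
  refine ⟨hfree, hMfinR, hann, hRfin, hRfree, L.ψ,
    fun i => L.φ (MvPowerSeries.X i), L.ψ_surjective, hker, fun i => ?_⟩
  have := Module.nontrivial R M
  exact map_maximalIdeal_le L (Ideal.mem_map_of_mem _
    (span_X_le_maximalIdeal (Ideal.subset_span ⟨i, rfl⟩)))

end Fermat.Agent.Patching
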