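import Fermat.Prelude.Def_Algebra_PatchingDatum
import Fermat.Agent.Patching.PowerSeriesTopology
import Fermat.Agent.PatchDescent.RegularSeq
import Mathlib.LinearAlgebra.Matrix.Basis

/-!
# Frames of a patching level

A patching level with relation ideal contained in the augmentation ideal, seen in coordinates
attached to a given `𝒪`-basis of `M`.
-/

set_option autoImplicit false

namespace Fermat.Agent.Patching

open IsLocalRing

variable {𝒪 : Type} [CommRing 𝒪] {r : ℕ} {R : Type} [CommRing R] [Algebra 𝒪 R]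
variable {M : Type} [AddCommGroup M] [Module R M]

local notation "Λ" => MvPowerSeries (Fin r) 𝒪

/-- For a surjection `g : Aⁱ → N` semilinear along `f`, the elements of `f(I) N` are the images of
vectors with entries in `I`. -/
theorem exists_preimage_of_mem_map_smul {A S N ι : Type} [CommRing A] [CommRing S] [AddCommGroup N]
    [Module S N] {f : A →+* S} {g : (ι → A) →+ N} (hsmul : ∀ a c, g (a • c) = f a • g c)
    (hg : Function.Surjective g) {I : Ideal A} {x : N}
    (hx : x ∈ I.map f • (⊤ : Submodule S N)) : ∃ c : ι → A, (∀ i, c i ∈ I) ∧ g c = x := by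
  refine Submodule.smul_induction_on hx ?_ ?_
  · intro a ha y _
    revert y
    rw [Ideal.map] at ha
    induction ha using Submodule.span_induction with
    | mem z hz =>
      obtain ⟨h, hh, rfl⟩ := hz
      intro y _
      obtain ⟨cy, rfl⟩ := hg y
      refine ⟨h • cy, fun j => ?_, hsmul h cy⟩
      rw [Pi.smul_apply, smul_eq_mul]
      exact Ideal.mul_mem_right _ _ hh
    | zero => intro y _; exact ⟨0, fun _ => zero_mem _, by simp⟩
    | add a b _ _ iha ihb =>
      intro y hy
      obtain ⟨c₁, h₁, e₁⟩ := iha y hy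
      obtain ⟨c₂, h₂, e₂⟩ := ihb y hy
      exact ⟨c₁ + c₂, fun k => add_mem (h₁ k) (h₂ k), by rw [map_add, e₁, e₂, add_smul]⟩
    | smul g a _ iha =>
      intro y hy
      obtain ⟨c₁, h₁, e₁⟩ := iha (g • y) trivial
      exact ⟨c₁, h₁, by rw [e₁, smul_eq_mul, mul_comm, mul_smul]⟩
  · rintro y z ⟨c₁, h₁, rfl⟩ ⟨c₂, h₂, rfl⟩
    exact ⟨c₁ + c₂, fun k => add_mem (h₁ k) (h₂ k), map_add _ _ _⟩

/-- A power series minus its constant term lies in the ideal of the variables. -/
theorem sub_C_constantCoeff_mem_span_X (f : Λ) :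
    f - MvPowerSeries.C (MvPowerSeries.constantCoeff f) ∈
      Ideal.span (Set.range (MvPowerSeries.X (R := 𝒪))) := by
  rw [← pow_one (Ideal.span (Set.range (MvPowerSeries.X (R := 𝒪))))]
  refine mem_span_X_pow fun e he => ?_
  rw [(Finsupp.degree_eq_zero_iff e).mp (by omega)]
  simp

theorem span_X_le_ker :
    Ideal.span (Set.range (MvPowerSeries.X (R := 𝒪))) ≤
      RingHom.ker (MvPowerSeries.constantCoeff (σ := Fin r) (R := 𝒪)) :=
  Ideal.span_le.mpr (by rintro _ ⟨i, rfl⟩; simp)

/-- On a level `ψ ∘ φ` is the constant term. -/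
theorem psi_phi_eq {J : Ideal Λ} (L : Algebra.PatchingLevel 𝒪 r R M J) (c : Λ) :
    L.ψ (L.φ c) = algebraMap 𝒪 R (MvPowerSeries.constantCoeff c) := by
  have hker : Ideal.span (Set.range (MvPowerSeries.X (R := 𝒪))) ≤
      RingHom.ker (L.ψ.comp L.φ) :=
    Ideal.span_le.mpr (by rintro _ ⟨i, rfl⟩; simpa using! L.ψ_φ_X i)
  have h := RingHom.mem_ker.mp (hker (sub_C_constantCoeff_mem_span_X c))
  rw [map_sub, sub_eq_zero] at h
  simp only [AlgHom.comp_apply] at h
  rw [h, show (MvPowerSeries.C (MvPowerSeries.constantCoeff c) : Λ) =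
    algebraMap 𝒪 Λ (MvPowerSeries.constantCoeff c) from rfl, AlgHom.commutes, AlgHom.commutes]

/-- The map `φ` of a patching level is local. -/
theorem map_maximalIdeal_le [IsDomain 𝒪] [IsDiscreteValuationRing 𝒪] [Nontrivial R]
    {J : Ideal Λ} (L : Algebra.PatchingLevel 𝒪 r R M J) :
    (maximalIdeal Λ).map L.φ ≤ maximalIdeal Λ := by
  obtain ⟨ϖ, hϖ⟩ := IsDiscreteValuationRing.exists_irreducible 𝒪
  refine (Ideal.map_mono (PatchDescent.maximalIdeal_le_params hϖ r)).trans ?_
  rw [Ideal.map_span, Ideal.span_le]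
  rintro _ ⟨y, hy, rfl⟩
  rw [SetLike.mem_coe, mem_maximalIdeal, mem_nonunits_iff]
  simp only [PatchDescent.params, Set.mem_ofPred_eq, List.mem_append, List.mem_ofFn, List.mem_cons,
    List.not_mem_nil, or_false] at hy
  rcases hy with ⟨i, rfl⟩ | rfl
  · intro hu
    exact not_isUnit_zero (L.ψ_φ_X i ▸ hu.map L.ψ)
  · rw [show (MvPowerSeries.C ϖ : Λ) = algebraMap 𝒪 _ ϖ from rfl, AlgHom.commutes,
      MvPowerSeries.isUnit_iff_constantCoeff]
    simpa [MvPowerSeries.algebraMap_apply] using hϖ.not_isUnit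

/-- The coordinate map of a patching level. -/
noncomputable def coords {J : Ideal Λ} (L : Algebra.PatchingLevel 𝒪 r R M J) :
    (Fin L.d → Λ) →+ L.N where
  toFun c := ∑ i, L.φ (c i) • L.b i
  map_zero' := by simp
  map_add' c c' := by simp [add_smul, Finset.sum_add_distrib]

theorem pi_coords {J : Ideal Λ} (L : Algebra.PatchingLevel 𝒪 r R M J) (c : Fin L.d → Λ) :
    L.π (coords L c) =
      ∑ i, algebraMap 𝒪 R (MvPowerSeries.constantCoeff (c i)) • L.π (L.b i) := by
  simp [coords, map_sum, L.π_smul, psi_phi_eq]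

/-- The images in `M` of the generators of a level form an `𝒪`-basis of `M`. -/
theorem exists_basis [Module 𝒪 M] [IsScalarTower 𝒪 R M] {J : Ideal Λ}
    (hJ : J ≤ RingHom.ker (MvPowerSeries.constantCoeff (σ := Fin r) (R := 𝒪)))
    (L : Algebra.PatchingLevel 𝒪 r R M J) :
    ∃ f : Module.Basis (Fin L.d) 𝒪 M, ∀ i, f i = L.π (L.b i) := by
  set X₀ := Ideal.span (Set.range (MvPowerSeries.X (R := 𝒪) (σ := Fin r))) with hX₀
  have hzero : ∀ c : Fin L.d → Λ, L.π (coords L c) = 0 →
      ∀ i, MvPowerSeries.constantCoeff (c i) = 0 := by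
    intro c hc i
    have hmap : Ideal.span (Set.range fun i : Fin r => L.φ (MvPowerSeries.X i)) =
        X₀.map L.φ.toRingHom := by
      rw [hX₀, Ideal.map_span, ← Set.range_comp]
      rfl
    obtain ⟨c', hc', e⟩ := exists_preimage_of_mem_map_smul (g := coords L)
      (fun a c => by simp [coords, Finset.smul_sum, mul_smul])
      (fun x => (L.b_span x).imp fun c h => h.symm) (hmap ▸ (L.ker_π _).mp hc)
    have : coords L (c - c') = 0 := by rw [map_sub, e, sub_self]
    have h0 : (c - c') i ∈ J := (L.b_rel _).mp this i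
    have h1 := RingHom.mem_ker.mp (hJ h0)
    have h2 := RingHom.mem_ker.mp (span_X_le_ker (hc' i))
    simpa [h2] using h1
  have hlin : LinearIndependent 𝒪 (fun i => L.π (L.b i)) := by
    rw [linearIndependent_iff'']
    intro s g _ hg i
    classical
    have hs : L.π (coords L fun i => MvPowerSeries.C (if i ∈ s then g i else 0)) = 0 := by
      rw [pi_coords]
      simpa [algebraMap_smul, ite_smul, Finset.sum_ite_mem] using hg
    have := hzero _ hs i
    by_cases hi : i ∈ s
    · simpa [hi] using this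
    · aesop
  have hspan : ⊤ ≤ Submodule.span 𝒪 (Set.range fun i => L.π (L.b i)) := by
    intro m _
    obtain ⟨x, rfl⟩ := L.π_surjective m
    obtain ⟨c, hc⟩ := L.b_span x
    rw [show x = coords L c from hc, pi_coords]
    exact Submodule.sum_mem _ fun i _ => by
      rw [algebraMap_smul]; exact Submodule.smul_mem _ _ (Submodule.subset_span ⟨i, rfl⟩)
  exact ⟨Module.Basis.mk hlin hspan, fun i => by simp⟩

/-- Coordinates on a patching level attached to a basis `e` of `M`. -/
structure Frame {J : Ideal Λ} (L : Algebra.PatchingLevel 𝒪 r R M J) {d : ℕ} (e : Fin d → M) where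
  coord : (Fin d → Λ) →+ L.N
  smul_coord : ∀ (h : Λ) (c : Fin d → Λ), coord (h • c) = L.φ h • coord c
  surjective : Function.Surjective coord
  coord_eq_zero : ∀ c, coord c = 0 ↔ ∀ i, c i ∈ J
  π_coord : ∀ c, L.π (coord c) =
    ∑ i, algebraMap 𝒪 R (MvPowerSeries.constantCoeff (c i)) • e i

/-- A patching level has a frame over any `𝒪`-basis of `M`. -/
theorem exists_frame [Module 𝒪 M] [IsScalarTower 𝒪 R M] {J : Ideal Λ}
    (hJ : J ≤ RingHom.ker (MvPowerSeries.constantCoeff (σ := Fin r) (R := 𝒪)))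
    (L : Algebra.PatchingLevel 𝒪 r R M J) {d : ℕ} (e : Module.Basis (Fin d) 𝒪 M) :
    Nonempty (Frame L e) := by
  classical
  obtain ⟨f, hf⟩ := exists_basis hJ L
  let A : Matrix (Fin L.d) (Fin d) Λ := (f.toMatrix e).map MvPowerSeries.C
  let B : Matrix (Fin d) (Fin L.d) Λ := (e.toMatrix f).map MvPowerSeries.C
  have hAB : A * B = 1 := by
    simp only [A, B, ← Matrix.map_mul, Module.Basis.toMatrix_mul_toMatrix_flip]
    simp
  have hBA : B * A = 1 := by
    simp only [A, B, ← Matrix.map_mul, Module.Basis.toMatrix_mul_toMatrix_flip]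
    simp
  refine ⟨⟨(coords L).comp A.mulVecLin.toAddMonoidHom, fun h c => ?_, fun x => ?_, fun c => ?_,
    fun c => ?_⟩⟩
  · change coords L (A.mulVec (h • c)) = L.φ h • coords L (A.mulVec c)
    rw [Matrix.mulVec_smul]
    simp [coords, Finset.smul_sum, mul_smul]
  · obtain ⟨c, hc⟩ := L.b_span x
    refine ⟨B.mulVec c, ?_⟩
    change coords L (A.mulVec (B.mulVec c)) = x
    rw [Matrix.mulVec_mulVec, hAB, Matrix.one_mulVec]
    exact hc.symm
  · change coords L (A.mulVec c) = 0 ↔ _
    refine (L.b_rel _).trans ⟨fun h i => ?_, fun h i => ?_⟩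
    · have := congrFun (show B.mulVec (A.mulVec c) = c by
        rw [Matrix.mulVec_mulVec, hBA, Matrix.one_mulVec]) i
      rw [← this]
      simp only [Matrix.mulVec, dotProduct] at h ⊢
      exact Ideal.sum_mem _ fun j _ => Ideal.mul_mem_left _ _ (h j)
    · simp only [Matrix.mulVec, dotProduct]
      exact Ideal.sum_mem _ fun j _ => Ideal.mul_mem_left _ _ (h j)
  · change L.π (coords L (A.mulVec c)) = _
    rw [pi_coords]
    simp only [← hf, Matrix.mulVec, dotProduct, A, Matrix.map_apply, map_sum, map_mul,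
      MvPowerSeries.constantCoeff_C, Finset.sum_smul]
    rw [Finset.sum_comm]
    refine Finset.sum_congr rfl fun i _ => ?_
    conv_rhs => rw [← f.sum_toMatrix_smul_self e i, Finset.smul_sum]
    refine Finset.sum_congr rfl fun j _ => ?_
    rw [mul_comm, mul_smul, algebraMap_smul, algebraMap_smul]
    rw [algebraMap_smul]

end Fermat.Agent.Patching
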