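import Fermat.Agent.Patching.ULim
import Fermat.Agent.Patching.Level
import Fermat.Prelude.Thm_IsLocalRing_isAdicComplete_of_module_finite
import Mathlib.RingTheory.Filtration

/-!
# The patching limit

A patching datum over a complete DVR with finite residue field yields a patching level with
trivial relation ideal, so that the descent step (`Fermat.Agent.S57`) applies.
-/

set_option autoImplicit false

namespace Fermat.Agent.Patching

open IsLocalRing Filter

/-! ### Two elementary lemmas -/

/-- If `m` is a natural number in an ideal `I` and `y ≡ 1 mod I`, then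
`y ^ (m ^ n) ≡ 1 mod I ^ (n + 1)`. -/
theorem pow_pow_sub_one_mem {A : Type} [CommRing A] {I : Ideal A} {m : ℕ} (hm : (m : A) ∈ I)
    {y : A} (hy : y - 1 ∈ I) : ∀ n, y ^ (m ^ n) - 1 ∈ I ^ (n + 1)
  | 0 => by simpa using hy
  | n + 1 => by
    have ih := pow_pow_sub_one_mem hm hy n
    rw [pow_succ m n, pow_mul, ← geom_sum_mul, pow_succ' I (n + 1)]
    refine Ideal.mul_mem_mul ?_ ih
    have : (∑ i ∈ Finset.range m, (y ^ m ^ n) ^ i) - (m : A) ∈ I := by
      rw [show (m : A) = ∑ _i ∈ Finset.range m, (1 : A) by simp, ← Finset.sum_sub_distrib]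
      refine Ideal.sum_mem _ fun i _ => ?_
      have h1 : y ^ m ^ n - 1 ∈ I := Ideal.pow_le_self (by omega) ih
      exact Ideal.mem_of_dvd _ (sub_one_dvd_pow_sub_one _ i) h1
    simpa using add_mem this hm

/-- A finite module over a local ring is killed by the `(card)`-th power of the maximal ideal. -/
theorem pow_smul_top_eq_bot_of_finite {A : Type} [CommRing A] [IsLocalRing A]
    (V : Type) [AddCommGroup V] [Module A V] [Finite V] {n : ℕ} (hn : Nat.card V ≤ n) :
    maximalIdeal A ^ n • (⊤ : Submodule A V) = ⊥ := by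
  have key : ∀ i, maximalIdeal A ^ i • (⊤ : Submodule A V) = ⊥ ∨
      Nat.card ↥(maximalIdeal A ^ i • (⊤ : Submodule A V)) + i ≤ Nat.card V := by
    intro i
    induction i with
    | zero =>
      refine .inr ?_
      simp
    | succ i ih =>
      have hle : maximalIdeal A ^ (i + 1) • (⊤ : Submodule A V) =
          maximalIdeal A • (maximalIdeal A ^ i • (⊤ : Submodule A V)) := by
        rw [pow_succ', Submodule.mul_smul]
      rcases ih with ih | ih
      · left; rw [hle, ih, Submodule.smul_bot]
      · by_cases h0 : maximalIdeal A ^ i • (⊤ : Submodule A V) = ⊥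
        · left; rw [hle, h0, Submodule.smul_bot]
        · right
          have hfg : (maximalIdeal A ^ i • (⊤ : Submodule A V)).FG :=
            Submodule.fg_def.mpr ⟨_, Set.toFinite _, Submodule.span_eq _⟩
          have hlt : maximalIdeal A ^ (i + 1) • (⊤ : Submodule A V) <
              maximalIdeal A ^ i • (⊤ : Submodule A V) := by
            refine lt_of_le_of_ne (hle ▸ Submodule.smul_le_right) fun heq => h0 ?_
            exact Submodule.eq_bot_of_le_smul_of_le_jacobson_bot (maximalIdeal A) _ hfg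
              (by rw [← hle, heq]) (maximalIdeal_le_jacobson _)
          have := Set.ncard_lt_ncard (SetLike.coe_ssubset_coe.mpr hlt) (Set.toFinite _)
          rw [← Nat.card_coe_set_eq, ← Nat.card_coe_set_eq] at this
          simp only [SetLike.coe_sort_coe] at this
          omega
  rcases key n with h | h
  · exact h
  · have : 0 < Nat.card ↥(maximalIdeal A ^ n • (⊤ : Submodule A V)) := Nat.card_pos
    omega

/-! ### Building a trivial-relation level from a twisted action -/

/-- `Fin d → A` with the `A`-module structure given by `Θ`. -/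
def Twisted {A : Type} [CommRing A] {d : ℕ} (_Θ : A →+* Module.End A (Fin d → A)) : Type :=
  Fin d → A

instance {A : Type} [CommRing A] {d : ℕ} (Θ : A →+* Module.End A (Fin d → A)) :
    AddCommGroup (Twisted Θ) :=
  inferInstanceAs (AddCommGroup (Fin d → A))

noncomputable instance {A : Type} [CommRing A] {d : ℕ} (Θ : A →+* Module.End A (Fin d → A)) :
    Module A (Twisted Θ) :=
  Module.compHom (Fin d → A) Θ

/-- View a vector as an element of the twisted module. -/
def Twisted.mk {A : Type} [CommRing A] {d : ℕ} (Θ : A →+* Module.End A (Fin d → A)) :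
    (Fin d → A) →+ Twisted Θ where
  toFun c := c
  map_zero' := rfl
  map_add' _ _ := rfl

/-- The vector underlying an element of the twisted module. -/
def Twisted.val {A : Type} [CommRing A] {d : ℕ} {Θ : A →+* Module.End A (Fin d → A)} :
    Twisted Θ →+ (Fin d → A) where
  toFun c := c
  map_zero' := rfl
  map_add' _ _ := rfl

/-- The action on the twisted module is `Θ`. -/
theorem Twisted.smul_mk {A : Type} [CommRing A] {d : ℕ} {Θ : A →+* Module.End A (Fin d → A)}
    (f : A) (c : Fin d → A) : f • Twisted.mk Θ c = Twisted.mk Θ (Θ f c) :=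
  rfl

/-- A twisted action on `𝒪⟦X⟧ᵈ` gives a patching level with trivial relation ideal. -/
theorem nonempty_patchingLevel_of_action {𝒪 : Type} [CommRing 𝒪] {r : ℕ} {R : Type} [CommRing R]
    [Algebra 𝒪 R] {M : Type} [AddCommGroup M] [Module R M] [Module 𝒪 M] [IsScalarTower 𝒪 R M]
    {d : ℕ} (e : Module.Basis (Fin d) 𝒪 M)
    (φ : MvPowerSeries (Fin r) 𝒪 →ₐ[𝒪] MvPowerSeries (Fin r) 𝒪)
    (ψ : MvPowerSeries (Fin r) 𝒪 →ₐ[𝒪] R) (hψ : Function.Surjective ψ)
    (hψφ : ∀ i : Fin r, ψ (φ (MvPowerSeries.X i)) = 0)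
    (Θ : MvPowerSeries (Fin r) 𝒪 →+*
      Module.End (MvPowerSeries (Fin r) 𝒪) (Fin d → MvPowerSeries (Fin r) 𝒪))
    (hΘ : ∀ h c, Θ (φ h) c = h • c)
    (hP : ∀ f c, (∑ i, algebraMap 𝒪 R (MvPowerSeries.constantCoeff (Θ f c i)) • e i) =
      ψ f • ∑ i, algebraMap 𝒪 R (MvPowerSeries.constantCoeff (c i)) • e i) :
    Nonempty (Algebra.PatchingLevel 𝒪 r R M ⊥) := by
  classical
  let P : Twisted Θ →+ M :=
    { toFun := fun c => ∑ i,
        algebraMap 𝒪 R (MvPowerSeries.constantCoeff (Twisted.val c i)) • e i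
      map_zero' := by simp
      map_add' := fun c c' => by simp [add_smul, Finset.sum_add_distrib] }
  have hb : ∀ c : Fin d → MvPowerSeries (Fin r) 𝒪,
      (∑ i, φ (c i) • Twisted.mk Θ (Pi.single i 1)) = Twisted.mk Θ c := by
    intro c
    simp only [Twisted.smul_mk, hΘ]
    rw [← map_sum, ← pi_eq_sum_univ' c]
  refine ⟨{
    N := Twisted Θ
    φ := φ
    ψ := ψ
    ψ_surjective := hψ
    ψ_φ_X := hψφ
    π := P
    π_smul := fun f c => hP f (Twisted.val c)
    π_surjective := fun m => ?_
    ker_π := fun c => ?_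
    d := d
    b := fun i => Twisted.mk Θ (Pi.single i 1)
    b_span := fun x => ⟨Twisted.val x, (hb (Twisted.val x)).symm⟩
    b_rel := fun c => ?_ }⟩
  · refine ⟨Twisted.mk Θ fun i => MvPowerSeries.C (e.repr m i), ?_⟩
    change ∑ i, algebraMap 𝒪 R (MvPowerSeries.constantCoeff (MvPowerSeries.C (e.repr m i))) •
      e i = m
    simp [algebraMap_smul, e.sum_repr]
  · constructor
    · intro hc
      change ∑ i, algebraMap 𝒪 R (MvPowerSeries.constantCoeff (Twisted.val c i)) • e i = 0 at hc
      simp only [algebraMap_smul] at hc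
      have h0 := Fintype.linearIndependent_iff.mp e.linearIndependent _ hc
      rw [show c = Twisted.mk Θ (Twisted.val c) from rfl, ← hb (Twisted.val c)]
      refine Submodule.sum_mem _ fun i _ => Submodule.smul_mem_smul ?_ Submodule.mem_top
      have hi := sub_C_constantCoeff_mem_span_X (Twisted.val c i)
      rw [h0 i, map_zero, sub_zero] at hi
      have := Ideal.mem_map_of_mem φ hi
      rw [Ideal.map_span, ← Set.range_comp] at this
      exact this
    · intro hc
      refine Submodule.smul_induction_on hc ?_ ?_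
      · intro a ha x _
        change P (a • x) = 0
        have hle : Ideal.span (Set.range fun i : Fin r => φ (MvPowerSeries.X i)) ≤ RingHom.ker ψ :=
          Ideal.span_le.mpr (by rintro _ ⟨i, rfl⟩; exact hψφ i)
        exact (hP a (Twisted.val x)).trans (by rw [RingHom.mem_ker.mp (hle ha), zero_smul])
      · intro x y hx hy
        rw [map_add, hx, hy, add_zero]
  · rw [hb c]
    change c = (0 : Fin d → MvPowerSeries (Fin r) 𝒪) ↔ _
    simp [funext_iff]

/-! ### Passing a linear relation to the limit -/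

/-- The limit of an `R`-linear relation with convergent coefficients holds in `M`, by Krull's
intersection theorem. -/
theorem sum_smul_eq_of_tends {R : Type} [CommRing R] [IsLocalRing R] [IsNoetherianRing R]
    {M : Type} [AddCommGroup M] [Module R M] [Module.Finite R M] {d : ℕ} {e : Fin d → M}
    {a : ℕ → Fin d → R} {x : Fin d → R} {b : ℕ → R} {y : R} {v : M}
    (ha : ∀ i, Tends (maximalIdeal R) (fun n => a n i) (x i)) (hb : Tends (maximalIdeal R) b y)
    (h : ∀ n, ∑ i, a n i • e i = b n • v) : ∑ i, x i • e i = y • v := by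
  rw [← sub_eq_zero, ← Submodule.mem_bot R, ← Ideal.iInf_pow_smul_eq_bot_of_isLocalRing
    (maximalIdeal R) (maximalIdeal.isMaximal R).ne_top, Submodule.mem_iInf]
  intro k
  obtain ⟨n, h1, h2⟩ := ((hb k).and (eventually_all.mpr fun i => ha i k)).exists
  have h3 : ∑ i, (a n i - x i) • e i ∈ maximalIdeal R ^ k • (⊤ : Submodule R M) :=
    Submodule.sum_mem _ fun i _ => Submodule.smul_mem_smul (h2 i) trivial
  have h4 : (b n - y) • v ∈ maximalIdeal R ^ k • (⊤ : Submodule R M) :=
    Submodule.smul_mem_smul h1 trivial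
  simp only [sub_smul, Finset.sum_sub_distrib, h n] at h3 h4
  simpa using sub_mem h4 h3

/-! ### The coordinates of the action on a level -/

section Coordinates

variable {𝒪 : Type} [CommRing 𝒪] {r : ℕ}

local notation "Λ" => MvPowerSeries (Fin r) 𝒪

variable {R : Type} [CommRing R] [Algebra 𝒪 R] {M : Type} [AddCommGroup M] [Module R M]
  {J : Ideal (MvPowerSeries (Fin r) 𝒪)} {L : Algebra.PatchingLevel 𝒪 r R M J}
  {d : ℕ} {e : Fin d → M}

namespace Frame

/-- The coordinates of `f • ∑ cⱼ bⱼ`, linear in `c`, for chosen coordinates of the `f • bⱼ`. -/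
noncomputable def act (F : Frame L e) (f : Λ) (c : Fin d → Λ) : Fin d → Λ :=
  ∑ j, c j • Function.surjInv F.surjective (f • F.coord (Pi.single j 1))

/-- `act` gives coordinates of the action. -/
theorem coord_act (F : Frame L e) (f : Λ) (c : Fin d → Λ) :
    F.coord (F.act f c) = f • F.coord c := by
  conv_rhs => rw [pi_eq_sum_univ' c]
  rw [act, map_sum, map_sum, Finset.smul_sum]
  refine Finset.sum_congr rfl fun j _ => ?_
  rw [F.smul_coord, F.smul_coord, Function.surjInv_eq F.surjective, smul_comm]

/-- Coordinates are determined modulo the relation ideal. -/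
theorem sub_mem_of_coord_eq (F : Frame L e) {c c' : Fin d → Λ} (h : F.coord c = F.coord c')
    (i : Fin d) : c i - c' i ∈ J :=
  (F.coord_eq_zero (c - c')).mp (by rw [map_sub, h, sub_self]) i

/-- The action in coordinates is compatible with `π`. -/
theorem π_act (F : Frame L e) (f : Λ) (c : Fin d → Λ) :
    (∑ i, algebraMap 𝒪 R (MvPowerSeries.constantCoeff (F.act f c i)) • e i) =
      L.ψ f • ∑ i, algebraMap 𝒪 R (MvPowerSeries.constantCoeff (c i)) • e i := by
  rw [← F.π_coord, ← F.π_coord, F.coord_act, L.π_smul]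

variable [IsDomain 𝒪] [IsDiscreteValuationRing 𝒪] [Finite (ResidueField 𝒪)]

/-- As `N / φ(𝔪) N` is finite, of order bounded independently of the level, a fixed power of `𝔪`
maps `N` into `φ(𝔪) N`. -/
theorem pow_card_smul_top_le (F : Frame L e) :
    maximalIdeal Λ ^ Nat.card (Fin d → Λ ⧸ maximalIdeal Λ) • (⊤ : Submodule Λ L.N) ≤
      (maximalIdeal Λ).map L.φ.toRingHom • ⊤ := by
  set m := maximalIdeal Λ
  set S : Submodule Λ L.N := m.map L.φ.toRingHom • ⊤
  have : Finite (Λ ⧸ m) := by
    have := finite_quotient_maximalIdeal_pow (O := 𝒪) (r := r) 1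
    rwa [pow_one] at this
  let s : Λ ⧸ m → Λ := Function.surjInv Ideal.Quotient.mk_surjective
  let q : (Fin d → Λ ⧸ m) → L.N ⧸ S :=
    fun c => Submodule.Quotient.mk (F.coord fun i => s (c i))
  have hq : Function.Surjective q := by
    intro x
    obtain ⟨x, rfl⟩ := Submodule.Quotient.mk_surjective _ x
    obtain ⟨c, rfl⟩ := F.surjective x
    refine ⟨fun i => Ideal.Quotient.mk m (c i), (Submodule.Quotient.eq _).mpr ?_⟩
    rw [← map_sub, pi_eq_sum_univ' (_ - c), map_sum]
    refine Submodule.sum_mem _ fun i _ => ?_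
    rw [F.smul_coord]
    refine Submodule.smul_mem_smul (Ideal.mem_map_of_mem _ ?_) trivial
    rw [Pi.sub_apply]
    exact Ideal.Quotient.eq.mp (Function.surjInv_eq _ _)
  have : Finite (L.N ⧸ S) := Finite.of_surjective q hq
  have hkill := pow_smul_top_eq_bot_of_finite (A := Λ) (L.N ⧸ S)
    (Nat.card_le_card_of_surjective q hq)
  rw [← Submodule.range_mkQ S, ← Submodule.map_top, ← Submodule.map_smul''] at hkill
  rwa [eq_bot_iff, Submodule.map_le_iff_le_comap, Submodule.comap_bot,
    Submodule.ker_mkQ] at hkill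

/-- Iterating, `𝔪 ^ (N₀ k)` maps `N` into `φ(𝔪 ^ k) N`. -/
theorem pow_mul_card_smul_top_le (F : Frame L e) (k : ℕ) :
    maximalIdeal Λ ^ (Nat.card (Fin d → Λ ⧸ maximalIdeal Λ) * k) • (⊤ : Submodule Λ L.N) ≤
      (maximalIdeal Λ ^ k).map L.φ.toRingHom • ⊤ := by
  rw [Ideal.map_pow]
  induction k with
  | zero => simp
  | succ k ih =>
    rw [mul_add_one, add_comm, pow_add, Submodule.mul_smul, pow_succ, Submodule.mul_smul]
    refine (Submodule.smul_mono le_rfl ih).trans ?_
    rw [← Submodule.mul_smul, mul_comm, Submodule.mul_smul]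
    exact Submodule.smul_mono le_rfl F.pow_card_smul_top_le

/-- Equicontinuity: if `g ≡ φ(h)` modulo `𝔪 ^ (N₀ k)` and the relations lie in `𝔪 ^ k`, then `g`
acts as multiplication by `h` modulo `𝔪 ^ k`. -/
theorem act_sub_smul_mem (F : Frame L e) {g h : Λ} {k : ℕ}
    (hg : g - L.φ h ∈ maximalIdeal Λ ^ (Nat.card (Fin d → Λ ⧸ maximalIdeal Λ) * k))
    (hJ : J ≤ maximalIdeal Λ ^ k) (c : Fin d → Λ) (i : Fin d) :
    F.act g c i - (h • c) i ∈ maximalIdeal Λ ^ k := by
  obtain ⟨c', hc', he⟩ := exists_preimage_of_mem_map_smul (g := F.coord) F.smul_coord F.surjective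
    (F.pow_mul_card_smul_top_le k (Submodule.smul_mem_smul (n := F.coord c) hg trivial))
  have h1 := hJ (F.sub_mem_of_coord_eq (c := F.act g c - h • c) (c' := c')
    (by rw [map_sub, F.coord_act, F.smul_coord, he, sub_smul]) i)
  simpa using add_mem h1 (hc' i)

end Frame

end Coordinates

/-! ### The limit -/

variable {𝒪 : Type} [CommRing 𝒪] [IsDomain 𝒪] [IsDiscreteValuationRing 𝒪]
  [IsAdicComplete (maximalIdeal 𝒪) 𝒪] [Finite (ResidueField 𝒪)] {ℓ r : ℕ}

local notation "Λ" => MvPowerSeries (Fin r) 𝒪

omit [IsAdicComplete (maximalIdeal 𝒪) 𝒪] [Finite (ResidueField 𝒪)] in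
/-- The relations `(1 + Xⱼ) ^ (ℓ ^ n) - 1` lie in `𝔪 ^ (n + 1)`. -/
theorem span_relations_le_pow (hℓ : (ℓ : 𝒪) ∈ maximalIdeal 𝒪) (n : ℕ) :
    Ideal.span (Set.range fun j : Fin r => ((1 + MvPowerSeries.X j) ^ (ℓ ^ n) - 1 : Λ)) ≤
      maximalIdeal Λ ^ (n + 1) := by
  have hℓΛ : (ℓ : Λ) ∈ maximalIdeal Λ := by
    rw [mem_maximalIdeal, mem_nonunits_iff, MvPowerSeries.isUnit_iff_constantCoeff, map_natCast]
    exact hℓ
  refine Ideal.span_le.mpr ?_
  rintro _ ⟨j, rfl⟩
  refine pow_pow_sub_one_mem hℓΛ ?_ n
  rw [add_sub_cancel_left]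
  exact span_X_le_maximalIdeal (Ideal.subset_span ⟨j, rfl⟩)

/-- A nonzero quotient of `𝒪⟦X⟧` is complete with finite quotients by powers of its maximal
ideal. -/
theorem isAdicComplete_and_finite_quotient {R : Type} [CommRing R] [IsLocalRing R] (f : Λ →+* R)
    (hf : Function.Surjective f) :
    IsAdicComplete (maximalIdeal R) R ∧ ∀ k, Finite (R ⧸ maximalIdeal R ^ k) := by
  refine ⟨?_, fun k => ?_⟩
  · let := f.toAlgebra
    have : Module.Finite Λ R := Module.Finite.of_surjective (Algebra.linearMap Λ R) hf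
    have : IsLocalHom (algebraMap Λ R) := .of_surjective _ hf
    exact IsLocalRing.isAdicComplete_of_module_finite (𝒪 := Λ)
  · have := finite_quotient_maximalIdeal_pow (O := 𝒪) (r := r) k
    let g : Λ ⧸ maximalIdeal Λ ^ k →+* R ⧸ maximalIdeal R ^ k :=
      Ideal.quotientMap _ f (by
        rw [← Ideal.map_le_iff_le_comap, Ideal.map_pow, map_maximalIdeal_of_surjective f hf])
    exact Finite.of_surjective g (Ideal.quotientMap_surjective hf)

/-- Frames of levels whose relations tend to zero have a limit action. -/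
theorem exists_limit_action {R : Type} [CommRing R] [Algebra 𝒪 R] {M : Type} [AddCommGroup M]
    [Module R M] {d : ℕ} {e : Fin d → M} {I : ℕ → Ideal Λ}
    {L : ∀ n, Algebra.PatchingLevel 𝒪 r R M (I n)} (F : ∀ n, Frame (L n) e)
    (hI : ∀ n, I n ≤ maximalIdeal Λ ^ (n + 1)) :
    ∃ Θ : Λ →+* Module.End Λ (Fin d → Λ),
      ∀ f c i, Tends (maximalIdeal Λ) (fun n => (F n).act f c i) (Θ f c i) := by
  set m := maximalIdeal Λ
  choose lim hlim using exists_tends m (fun k => finite_quotient_maximalIdeal_pow k)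
  let colLim : Λ → Fin d → Fin d → Λ := fun f j i =>
    lim fun n => Function.surjInv (F n).surjective (f • (F n).coord (Pi.single j 1)) i
  let T : Λ → Module.End Λ (Fin d → Λ) := fun f => Fintype.linearCombination Λ (colLim f)
  have hactlim : ∀ f (c : ℕ → Fin d → Λ) (x : Fin d → Λ),
      (∀ i, Tends m (fun n => c n i) (x i)) →
      ∀ i, Tends m (fun n => (F n).act f (c n) i) (T f x i) := fun f c x hc i => by
    simp only [T, Frame.act, Fintype.linearCombination_apply, Finset.sum_apply, Pi.smul_apply,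
      smul_eq_mul]
    exact Tends.sum fun j _ => (hc j).mul (hlim _)
  have hTends : ∀ f c i, Tends m (fun n => (F n).act f c i) (T f c i) := fun f c i =>
    hactlim f (fun _ => c) c (fun _ => Tends.const _) i
  have huniq : ∀ {a b : ℕ → Fin d → Λ} {x y : Λ} {i : Fin d}, Tends m (fun n => a n i) x →
      Tends m (fun n => b n i) y → (∀ n, (F n).coord (b n) = (F n).coord (a n)) → x = y :=
    fun {_ _ _ _ i} ha hb h => (ha.congr (Tends.of_mem_pow fun n =>
      hI n ((F n).sub_mem_of_coord_eq (h n) i))).unique hb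
  refine ⟨
    { toFun := T
      map_one' := LinearMap.ext fun c => funext fun i =>
        huniq (hTends 1 c i) (Tends.const (c i)) fun n => by rw [Frame.coord_act, one_smul]
      map_mul' := fun f g => LinearMap.ext fun c => funext fun i =>
        huniq (hTends (f * g) c i)
          (hactlim f (fun n => (F n).act g c) (T g c) (fun j => hTends g c j) i)
          fun n => by simp only [Frame.coord_act, mul_smul]
      map_zero' := LinearMap.ext fun c => funext fun i =>
        huniq (b := fun _ => 0) (hTends 0 c i) (Tends.const 0) fun n => by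
          rw [Frame.coord_act, zero_smul, map_zero]
      map_add' := fun f g => LinearMap.ext fun c => funext fun i =>
        huniq (b := fun n => (F n).act f c + (F n).act g c) (hTends (f + g) c i)
          ((hTends f c i).add (hTends g c i)) fun n => by
            simp only [map_add, Frame.coord_act, add_smul] }, hTends⟩

/-- The patching limit in coordinates: frames of all levels over a basis of `M` have, along an
ultrafilter, limit maps and a limit action, which make up a level with trivial relation ideal. -/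
theorem nonempty_patchingLevel_bot_of_basis (hℓ : (ℓ : 𝒪) ∈ maximalIdeal 𝒪)
    {R : Type} [CommRing R] [Algebra 𝒪 R]
    {M : Type} [AddCommGroup M] [Module R M] [Module 𝒪 M] [IsScalarTower 𝒪 R M] [Nontrivial M]
    (D : Algebra.PatchingDatum 𝒪 ℓ r R M) {d : ℕ} (e : Module.Basis (Fin d) 𝒪 M) :
    Nonempty (Algebra.PatchingLevel 𝒪 r R M ⊥) := by
  set m := maximalIdeal Λ with hm
  have hRne : Nontrivial R := Module.nontrivial R M
  have hψsurj : ∀ n, Function.Surjective (D.level n).ψ.toRingHom := fun n =>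
    (D.level n).ψ_surjective
  have hloc : IsLocalRing R := IsLocalRing.of_surjective' _ (hψsurj 0)
  have hmap : ∀ n, m.map (D.level n).ψ.toRingHom = maximalIdeal R := fun n =>
    map_maximalIdeal_of_surjective _ (hψsurj n)
  have hNoeR : IsNoetherianRing R := isNoetherianRing_of_surjective Λ R _ (hψsurj 0)
  obtain ⟨hcompR, hfinR⟩ := isAdicComplete_and_finite_quotient _ (hψsurj 0)
  have hfinΛ : ∀ k, Finite (Λ ⧸ m ^ k) := fun k => finite_quotient_maximalIdeal_pow k
  -- the limit maps
  obtain ⟨φlim, hφlim⟩ := exists_algHom_tends m hfinΛ fun n => (D.level n).φ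
  obtain ⟨ψlim, hψlim⟩ := exists_algHom_tends (maximalIdeal R) hfinR fun n => (D.level n).ψ
  have hψcont : ∀ {a : ℕ → Λ} {x : Λ}, Tends m a x →
      Tends (maximalIdeal R) (fun n => (D.level n).ψ (a n)) (ψlim x) := fun {_ x} ha =>
    ha.apply_seq (fun n => (D.level n).ψ.toRingHom) (fun n => (hmap n).le) (hψlim x)
  have hψlimsurj : Function.Surjective ψlim := by
    intro y
    choose a ha using fun n => (D.level n).ψ_surjective y
    obtain ⟨x, hx⟩ := exists_tends m hfinΛ a
    refine ⟨x, (hψcont hx).unique ?_⟩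
    simpa [ha] using Tends.const (I := maximalIdeal R) y
  have hψφlim : ∀ i : Fin r, ψlim (φlim (MvPowerSeries.X i)) = 0 := by
    intro i
    refine (hψcont (hφlim (MvPowerSeries.X i))).unique ?_
    simpa [(D.level _).ψ_φ_X] using Tends.const (I := maximalIdeal R) (0 : R)
  -- the limit action
  have hJker : ∀ n, Ideal.span (Set.range fun j : Fin r =>
      ((1 + MvPowerSeries.X j) ^ (ℓ ^ n) - 1 : Λ)) ≤
        RingHom.ker (MvPowerSeries.constantCoeff (σ := Fin r) (R := 𝒪)) :=
    fun n => Ideal.span_le.mpr (by rintro _ ⟨j, rfl⟩; simp)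
  let F : ∀ n, Frame (D.level n) e := fun n => (exists_frame (hJker n) (D.level n) e).some
  obtain ⟨Θ, hΘ⟩ := exists_limit_action F (span_relations_le_pow hℓ)
  have hΘφ : ∀ h c, Θ (φlim h) c = h • c := fun h c => funext fun i => by
    refine (hΘ (φlim h) c i).unique fun k => ?_
    filter_upwards [hφlim h (Nat.card (Fin d → Λ ⧸ m) * k),
      eventually_U (eventually_ge_atTop k)] with n h1 h2
    exact (F n).act_sub_smul_mem (by rw [← neg_sub]; exact neg_mem h1)
      ((span_relations_le_pow hℓ n).trans (Ideal.pow_le_pow_right (by omega))) c i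
  -- compatibility with the projection to `M`
  let ε : Λ →+* R := (algebraMap 𝒪 R).comp MvPowerSeries.constantCoeff
  have hε : m.map ε ≤ maximalIdeal R := Ideal.map_le_iff_le_comap.2 fun x hx => by
    show algebraMap 𝒪 R (MvPowerSeries.constantCoeff x) ∈ maximalIdeal R
    rw [← psi_phi_eq (D.level 0), ← hmap 0]
    exact Ideal.mem_map_of_mem _ (map_maximalIdeal_le (D.level 0) (Ideal.mem_map_of_mem _ hx))
  have hMfin : Module.Finite R M := by
    have := Module.Finite.of_basis e
    exact Module.Finite.of_restrictScalars_finite 𝒪 R M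
  have hP : ∀ f c, (∑ i, algebraMap 𝒪 R (MvPowerSeries.constantCoeff (Θ f c i)) • e i) =
      ψlim f • ∑ i, algebraMap 𝒪 R (MvPowerSeries.constantCoeff (c i)) • e i := fun f c =>
    sum_smul_eq_of_tends (fun i => (hΘ f c i).comp ε hε) (hψlim f) fun n => (F n).π_act f c
  exact nonempty_patchingLevel_of_action e φlim ψlim hψlimsurj hψφlim Θ hΘφ hP

/-- **The patching limit**: a patching datum yields a patching level with trivial relation
ideal. -/
theorem nonempty_patchingLevel_bot (hℓ : (ℓ : 𝒪) ∈ maximalIdeal 𝒪)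
    {R : Type} [CommRing R] [Algebra 𝒪 R]
    {M : Type} [AddCommGroup M] [Module R M] [Nontrivial M]
    (D : Algebra.PatchingDatum 𝒪 ℓ r R M) :
    Nonempty (Algebra.PatchingLevel 𝒪 r R M ⊥) := by
  let := Module.compHom M (algebraMap 𝒪 R)
  have : IsScalarTower 𝒪 R M := IsScalarTower.of_algebraMap_smul fun _ _ => rfl
  obtain ⟨e, -⟩ := exists_basis (Ideal.span_le.mpr (by rintro _ ⟨j, rfl⟩; simp)) (D.level 0)
  exact nonempty_patchingLevel_bot_of_basis hℓ D e

end Fermat.Agent.Patching
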