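import Fermat.Agent.Patching.GroupAlgebra
import Fermat.Agent.Patching.Consequences

/-!
# The conclusion of patching from a family of levels

If for every `n` there is a patching level over `R` and `M` with relation ideal generated by the
`(1 + Xⱼ) ^ (ℓ ^ n) - 1`, then `R` is a finite free complete intersection over `𝒪` acting freely
and faithfully on `M`.
-/

set_option autoImplicit false

namespace Fermat.Agent.Patching

open IsLocalRing

/-- Taylor–Wiles levels for every `n` give the conclusion of patching. -/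
theorem conclusion_of_levels {𝒪 : Type} [CommRing 𝒪] [IsDomain 𝒪]
    [IsDiscreteValuationRing 𝒪] [IsAdicComplete (maximalIdeal 𝒪) 𝒪] [Finite (ResidueField 𝒪)]
    {ℓ r : ℕ} (hℓ : (ℓ : 𝒪) ∈ maximalIdeal 𝒪) {R : Type} [CommRing R] [Algebra 𝒪 R]
    {M : Type} [AddCommGroup M] [Module R M] [Nontrivial M]
    (h : ∀ n, Nonempty (Algebra.PatchingLevel 𝒪 r R M
      (Ideal.span (Set.range fun j : Fin r =>
        ((1 + MvPowerSeries.X j) ^ (ℓ ^ n) - 1 : MvPowerSeries (Fin r) 𝒪))))) :
    Module.Free R M ∧ Module.Finite R M ∧ Module.annihilator R M = ⊥ ∧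
      Module.Finite 𝒪 R ∧ Module.Free 𝒪 R ∧
      ∃ (ψ : MvPowerSeries (Fin r) 𝒪 →ₐ[𝒪] R) (f : Fin r → MvPowerSeries (Fin r) 𝒪),
        Function.Surjective ψ ∧
          RingHom.ker ψ = Ideal.span (Set.range f) ∧
          ∀ i, f i ∈ maximalIdeal (MvPowerSeries (Fin r) 𝒪) :=
  conclusion_of_patchingDatum hℓ ⟨fun n => (h n).some⟩

end Fermat.Agent.Patching
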