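import Mathlib.RingTheory.AdicCompletion.Basic
import Mathlib.Order.Filter.Ultrafilter.Basic
import Mathlib.Order.Filter.AtTopBot.Basic

/-!
# Limits along an ultrafilter in an adically complete ring with finite quotients

This is the pigeonhole argument of Taylor–Wiles patching, packaged as a limit operation.
-/

set_option autoImplicit false

namespace Fermat.Agent.Patching

open Filter

/-- The ultrafilter on `ℕ` used for patching. -/
noncomputable def U : Ultrafilter ℕ := Ultrafilter.of atTop

/-- What holds eventually holds along `U`. -/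
theorem eventually_U {p : ℕ → Prop} (h : ∀ᶠ n in atTop, p n) : ∀ᶠ n in (U : Filter ℕ), p n :=
  h.filter_mono (Ultrafilter.of_le _)

variable {A : Type} [CommRing A]

/-- `a n` tends to `x` along `U` in the `I`-adic topology. -/
def Tends (I : Ideal A) (a : ℕ → A) (x : A) : Prop :=
  ∀ k, ∀ᶠ n in (U : Filter ℕ), a n - x ∈ I ^ k

namespace Tends

variable {I : Ideal A} {a b : ℕ → A} {x y : A}

/-- A constant sequence tends to its value. -/
theorem const (x : A) : Tends I (fun _ => x) x := fun k => by simp

/-- Limits add. -/
theorem add (ha : Tends I a x) (hb : Tends I b y) : Tends I (fun n => a n + b n) (x + y) :=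
  fun k => ((ha k).and (hb k)).mono fun n h => by
    rw [add_sub_add_comm]; exact add_mem h.1 h.2

/-- Limits multiply. -/
theorem mul (ha : Tends I a x) (hb : Tends I b y) : Tends I (fun n => a n * b n) (x * y) :=
  fun k => ((ha k).and (hb k)).mono fun n h => by
    rw [show a n * b n - x * y = a n * (b n - y) + (a n - x) * y by ring]
    exact add_mem ((I ^ k).mul_mem_left _ h.2) ((I ^ k).mul_mem_right _ h.1)

/-- Limits commute with finite sums. -/
theorem sum {ι : Type*} {s : Finset ι} {f : ι → ℕ → A} {z : ι → A}
    (h : ∀ i ∈ s, Tends I (f i) (z i)) :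
    Tends I (fun n => ∑ i ∈ s, f i n) (∑ i ∈ s, z i) := by
  classical
  induction s using Finset.induction_on with
  | empty => simpa using const (I := I) 0
  | insert i t hi ih =>
    simp only [Finset.sum_insert hi]
    exact (h i (Finset.mem_insert_self i t)).add (ih fun j hj => h j (Finset.mem_insert_of_mem hj))

/-- Sequences differing by a null sequence have the same limit. -/
theorem congr (ha : Tends I a x) (h : Tends I (fun n => b n - a n) 0) : Tends I b x := by
  intro k
  filter_upwards [ha k, h k] with n h1 h2
  rw [sub_zero] at h2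
  simpa using add_mem h2 h1

/-- A sequence with `n`-th term in `I ^ (n + 1)` tends to `0`. -/
theorem of_mem_pow (h : ∀ n, a n ∈ I ^ (n + 1)) : Tends I a 0 := fun k =>
  eventually_U <| (eventually_ge_atTop k).mono fun n hn => by
    rw [sub_zero]; exact Ideal.pow_le_pow_right (by omega) (h n)

/-- Limits in a Hausdorff topology are unique. -/
theorem unique [IsHausdorff I A] (ha : Tends I a x) (ha' : Tends I a y) : x = y := by
  refine sub_eq_zero.mp (IsHausdorff.haus (I := I) inferInstance _ fun k => ?_)
  rw [SModEq.zero, smul_eq_mul, Ideal.mul_top]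
  obtain ⟨n, h1, h2⟩ := ((ha k).and (ha' k)).exists
  simpa using sub_mem h2 h1

/-- A ring map sending `I` into `J` preserves limits. -/
theorem comp {B : Type} [CommRing B] {J : Ideal B} (f : A →+* B) (hf : I.map f ≤ J)
    (ha : Tends I a x) : Tends J (fun n => f (a n)) (f x) := fun k =>
  (ha k).mono fun n h => by
    rw [← map_sub]
    refine Ideal.pow_right_mono hf k ?_
    rw [← Ideal.map_pow]
    exact Ideal.mem_map_of_mem f h

/-- Equicontinuity: a sequence of maps sending `I` into `J` carries convergent sequences to
convergent sequences. -/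
theorem apply_seq {B : Type} [CommRing B] {J : Ideal B} (f : ℕ → A →+* B)
    (hf : ∀ n, I.map (f n) ≤ J) {z : B} (ha : Tends I a x)
    (hz : Tends J (fun n => f n x) z) : Tends J (fun n => f n (a n)) z := fun k =>
  ((ha k).and (hz k)).mono fun n h => by
    have h1 : f n (a n - x) ∈ J ^ k := by
      refine Ideal.pow_right_mono (hf n) k ?_
      rw [← Ideal.map_pow]
      exact Ideal.mem_map_of_mem _ h.1
    rw [map_sub] at h1
    simpa using add_mem h1 h.2

end Tends

/-- Every sequence has a limit along `U`. -/
theorem exists_tends (I : Ideal A) [IsAdicComplete I A] (hfin : ∀ k, Finite (A ⧸ I ^ k))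
    (a : ℕ → A) : ∃ x, Tends I a x := by
  have hc : ∀ k, ∃ y : A, ∀ᶠ n in (U : Filter ℕ), a n - y ∈ I ^ k := by
    intro k
    have := hfin k
    obtain ⟨c, hc⟩ := (U.map fun n => Ideal.Quotient.mk (I ^ k) (a n)).eq_pure_of_finite
    obtain ⟨y, rfl⟩ := Ideal.Quotient.mk_surjective c
    refine ⟨y, ?_⟩
    have hmem : {Ideal.Quotient.mk (I ^ k) y} ∈
        U.map fun n => Ideal.Quotient.mk (I ^ k) (a n) := by
      rw [hc]; exact Ultrafilter.mem_pure.mpr rfl
    exact Filter.mem_of_superset (Ultrafilter.mem_map.mp hmem) fun n hn => Ideal.Quotient.eq.mp hn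
  choose y hy using hc
  obtain ⟨x, hx⟩ := IsPrecomplete.prec (I := I) inferInstance (f := y) (fun {m n} hmn => by
    rw [SModEq.sub_mem, smul_eq_mul, Ideal.mul_top]
    obtain ⟨j, h1, h2⟩ := ((hy m).and (hy n)).exists
    simpa using sub_mem (Ideal.pow_le_pow_right hmn h2) h1)
  refine ⟨x, fun k => (hy k).mono fun n h => ?_⟩
  have := hx k
  rw [SModEq.sub_mem, smul_eq_mul, Ideal.mul_top] at this
  simpa using add_mem h this

/-- Every sequence of algebra maps has a pointwise limit along `U`, again an algebra map. -/
theorem exists_algHom_tends {R₀ B : Type} [CommRing R₀] [CommRing B] [Algebra R₀ A] [Algebra R₀ B]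
    (I : Ideal B) [IsAdicComplete I B] (hfin : ∀ k, Finite (B ⧸ I ^ k))
    (f : ℕ → A →ₐ[R₀] B) : ∃ g : A →ₐ[R₀] B, ∀ a, Tends I (fun n => f n a) (g a) := by
  choose lim hlim using exists_tends I hfin
  exact ⟨
    { toFun := fun a => lim fun n => f n a
      map_one' := (hlim _).unique (by simpa using Tends.const (I := I) (1 : B))
      map_mul' := fun a b => (hlim _).unique (by simpa using (hlim _).mul (hlim _))
      map_zero' := (hlim _).unique (by simpa using Tends.const (I := I) (0 : B))
      map_add' := fun a b => (hlim _).unique (by simpa using (hlim _).add (hlim _))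
      commutes' := fun x =>
        (hlim _).unique (by simpa using Tends.const (I := I) (algebraMap R₀ B x)) },
    fun _ => hlim _⟩

end Fermat.Agent.Patching
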